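import Mathlib
import Fermat.Prelude.Thm_ModularForm_sturm_bound_of_isArithmetic
import Fermat.Agent.S23.Defs
import Fermat.Agent.S23.LevelOne
import Fermat.Agent.S23.MF
import Fermat.Agent.S48.G1.Defs
import Fermat.Agent.S23.ConverseQExp
import Fermat.Agent.MU.S23.Lagrange
import Fermat.Agent.S48.Defs

section MergeWrap_S23_BoundedDenom -- from S23/BoundedDenom.lean

set_option autoImplicit false

/-!
# Bounded denominators (S23, lemmas L2 and L4). Owner: helper86.

L2: if `F ∈ ℚ⟦X⟧` and `C ∈ ℤ⟦X⟧ \ {0}` satisfy `C * F ^ n ∈ ℤ⟦X⟧` for all `n`, then `F ∈ ℤ⟦X⟧`.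
L4: a rational series that is a quotient of series in the `ℂ`-span of integral series and a root of
a monic polynomial with coefficients in that span has bounded denominators.
-/

namespace Fermat.Agent.S23

open PowerSeries

section Order

variable {R : Type*} [CommRing R]

/-- Lowest coefficient of a product of two power series vanishing below `a` and `b`. -/
theorem coeff_mul_of_vanish_below {A B : PowerSeries R} {a b : ℕ}
    (hA : ∀ i < a, coeff i A = 0) (hB : ∀ i < b, coeff i B = 0) :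
    (∀ i < a + b, coeff i (A * B) = 0) ∧ coeff (a + b) (A * B) = coeff a A * coeff b B := by
  constructor
  · intro i hi
    rw [coeff_mul]
    refine Finset.sum_eq_zero fun x hx => ?_
    have hx' : x.1 + x.2 = i := Finset.HasAntidiagonal.mem_antidiagonal.mp hx
    by_cases h1 : x.1 < a
    · rw [hA _ h1, zero_mul]
    · have h2 : x.2 < b := by omega
      rw [hB _ h2, mul_zero]
  · rw [coeff_mul]
    rw [Finset.sum_eq_single (a, b)]
    · intro x hx hne
      have hx' : x.1 + x.2 = a + b := Finset.HasAntidiagonal.mem_antidiagonal.mp hx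
      by_cases h1 : x.1 < a
      · rw [hA _ h1, zero_mul]
      · by_cases h2 : x.2 < b
        · rw [hB _ h2, mul_zero]
        · exfalso
          apply hne
          have : x.1 = a := by omega
          have : x.2 = b := by omega
          exact Prod.ext ‹x.1 = a› ‹x.2 = b›
    · intro h
      exact absurd (Finset.HasAntidiagonal.mem_antidiagonal.mpr (show (a, b).1 + (a, b).2 = a + b from rfl)) h

/-- Lowest coefficient of a power of a power series vanishing below `b`. -/
theorem coeff_pow_of_vanish_below {B : PowerSeries R} {b : ℕ}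
    (hB : ∀ i < b, coeff i B = 0) (n : ℕ) :
    (∀ i < n * b, coeff i (B ^ n) = 0) ∧ coeff (n * b) (B ^ n) = (coeff b B) ^ n := by
  induction n with
  | zero =>
    refine ⟨fun i hi => ?_, ?_⟩
    · omega
    · simp
  | succ n ih =>
    have h := coeff_mul_of_vanish_below ih.1 hB
    have e : (n + 1) * b = n * b + b := by ring
    rw [pow_succ, e]
    refine ⟨h.1, ?_⟩
    rw [h.2, ih.2, pow_succ]

end Order

/-- Arithmetic core: a nonzero integer `c` with `c * h ^ n ∈ ℤ` for all `n` forces `h ∈ ℤ`. -/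
theorem rat_isInt_of_mul_pow_isInt (c : ℤ) (hc : c ≠ 0) (h : ℚ)
    (H : ∀ n : ℕ, ∃ m : ℤ, (c : ℚ) * h ^ n = m) : ∃ m : ℤ, h = m := by
  by_contra hne
  have hden : h.den ≠ 1 := by
    intro h1
    exact hne ⟨h.num, by
      conv_lhs => rw [← Rat.num_div_den h]
      rw [h1]; simp⟩
  have hden2 : 2 ≤ h.den := by
    have := h.den_pos
    omega
  -- `h.den ^ n ∣ c` for every `n`
  have hdvd : ∀ n : ℕ, ((h.den : ℤ) ^ n) ∣ c := by
    intro n
    obtain ⟨m, hm⟩ := H n
    have hd0 : (h.den : ℚ) ≠ 0 := by exact_mod_cast h.den_pos.ne'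
    have e1 : (c : ℚ) * (h.num : ℚ) ^ n = m * (h.den : ℚ) ^ n := by
      have : h = (h.num : ℚ) / (h.den : ℚ) := (Rat.num_div_den h).symm
      rw [this, div_pow] at hm
      field_simp at hm
      linarith
    have e2 : c * h.num ^ n = m * (h.den : ℤ) ^ n := by exact_mod_cast e1
    have hcop : IsCoprime ((h.den : ℤ) ^ n) (h.num ^ n) := by
      apply IsCoprime.pow
      rw [Int.isCoprime_iff_gcd_eq_one]
      have := h.reduced
      rw [Nat.Coprime] at this
      rw [Int.gcd_comm]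
      simpa [Int.gcd, Int.natAbs_natCast] using this
    have h3 : ((h.den : ℤ) ^ n) ∣ c * h.num ^ n := ⟨m, by rw [e2]; ring⟩
    exact hcop.dvd_of_dvd_mul_right h3
  -- contradiction for `n = |c|`
  have hle := Int.le_of_dvd (by positivity : (0 : ℤ) < |c|)
    ((dvd_abs _ _).mpr (hdvd c.natAbs))
  have h4 : (2 : ℤ) ^ c.natAbs ≤ (h.den : ℤ) ^ c.natAbs := by
    apply pow_le_pow_left₀ (by norm_num)
    exact_mod_cast hden2
  have h5 : (c.natAbs : ℤ) < (2 : ℤ) ^ c.natAbs := by
    exact_mod_cast Nat.lt_two_pow_self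
  have h6 : |c| = (c.natAbs : ℤ) := (Int.natCast_natAbs c).symm
  omega

/-- The subring of `ℚ⟦X⟧` of power series with integer coefficients. -/
noncomputable def intSeries : Subring (PowerSeries ℚ) := (PowerSeries.map (Int.castRingHom ℚ)).range

theorem mem_intSeries_iff (F : PowerSeries ℚ) :
    F ∈ intSeries ↔ ∀ n : ℕ, ∃ m : ℤ, coeff n F = m := by
  constructor
  · rintro ⟨G, rfl⟩ n
    exact ⟨coeff n G, by simp⟩
  · intro h
    choose g hg using h
    refine ⟨PowerSeries.mk g, ?_⟩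
    ext n
    simp [hg n]

/-- **Bounded denominators (L2).** If `C ∈ ℤ⟦X⟧` is nonzero and `C * F ^ n` has integer
coefficients for every `n`, then `F` has integer coefficients. -/
theorem mem_ringHomRange_of_bounded_powers (F : PowerSeries ℚ) (C : PowerSeries ℤ) (hC : C ≠ 0)
    (h : ∀ n : ℕ, C.map (Int.castRingHom ℚ) * F ^ n ∈
      (PowerSeries.map (Int.castRingHom ℚ)).range) :
    F ∈ (PowerSeries.map (Int.castRingHom ℚ)).range := by
  change F ∈ intSeries
  have h' : ∀ n : ℕ, C.map (Int.castRingHom ℚ) * F ^ n ∈ intSeries := h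
  by_contra hF
  rw [mem_intSeries_iff] at hF
  push Not at hF
  classical
  -- least non-integral coefficient of `F`
  let i₀ := Nat.find hF
  have hi₀ : ∀ m : ℤ, coeff i₀ F ≠ m := Nat.find_spec hF
  have hlt : ∀ i < i₀, ∃ m : ℤ, coeff i F = m := fun i hi => by
    have := Nat.find_min hF hi
    push Not at this
    exact this
  -- the integral head of `F`
  let G' : PowerSeries ℚ := PowerSeries.mk fun i => if i < i₀ then coeff i F else 0
  have hG' : G' ∈ intSeries := by
    rw [mem_intSeries_iff]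
    intro n
    by_cases hn : n < i₀
    · obtain ⟨m, hm⟩ := hlt n hn
      exact ⟨m, by simp [G', hn, hm]⟩
    · exact ⟨0, by simp [G', hn]⟩
  let B : PowerSeries ℚ := F - G'
  have hB : ∀ i < i₀, coeff i B = 0 := fun i hi => by simp [B, G', hi]
  have hB0 : coeff i₀ B = coeff i₀ F := by simp [B, G']
  -- lowest coefficient of `C`
  have hCex : ∃ a, coeff a C ≠ 0 := by
    by_contra hall
    push Not at hall
    exact hC (PowerSeries.ext fun n => by simpa using hall n)
  let a := Nat.find hCex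
  have ha : coeff a C ≠ 0 := Nat.find_spec hCex
  have halt : ∀ i < a, coeff i (C.map (Int.castRingHom ℚ)) = 0 := fun i hi => by
    have := Nat.find_min hCex hi
    push Not at this
    simp [this]
  -- `C * B ^ n` is integral
  have hCB : ∀ n : ℕ, C.map (Int.castRingHom ℚ) * B ^ n ∈ intSeries := by
    intro n
    have : B ^ n = ∑ k ∈ Finset.range (n + 1), F ^ k * (-G') ^ (n - k) * (n.choose k : PowerSeries ℚ) := by
      simp only [B, sub_eq_add_neg]
      exact add_pow F (-G') n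
    rw [this, Finset.mul_sum]
    refine Subring.sum_mem _ fun k _ => ?_
    have e : C.map (Int.castRingHom ℚ) * (F ^ k * (-G') ^ (n - k) * (n.choose k : PowerSeries ℚ)) =
        (C.map (Int.castRingHom ℚ) * F ^ k) * ((-G') ^ (n - k) * (n.choose k : PowerSeries ℚ)) := by
      ring
    rw [e]
    refine Subring.mul_mem _ (h' k) (Subring.mul_mem _ ?_ ?_)
    · exact Subring.pow_mem _ (Subring.neg_mem _ hG') _
    · exact natCast_mem _ _
  -- extract the lowest coefficient
  have key : ∀ n : ℕ, ∃ m : ℤ, ((coeff a C : ℤ) : ℚ) * (coeff i₀ F) ^ n = m := by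
    intro n
    have h1 := (coeff_pow_of_vanish_below hB n)
    have h2 := (coeff_mul_of_vanish_below halt h1.1).2
    rw [h1.2, hB0] at h2
    obtain ⟨m, hm⟩ := (mem_intSeries_iff _).mp (hCB n) (a + n * i₀)
    refine ⟨m, ?_⟩
    rw [← hm, h2]
    simp
  obtain ⟨m, hm⟩ := rat_isInt_of_mul_pow_isInt _ ha _ key
  exact hi₀ m hm

/-- L2: `ℤ⟦X⟧` is "completely integrally closed" in `ℚ⟦X⟧`. -/
theorem mem_range_map_of_bounded_powers (F : PowerSeries ℚ) (C : PowerSeries ℤ) (hC : C ≠ 0)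
    (h : ∀ n : ℕ, C.map (Int.castRingHom ℚ) * F ^ n ∈
      Set.range (PowerSeries.map (Int.castRingHom ℚ))) :
    F ∈ Set.range (PowerSeries.map (Int.castRingHom ℚ)) :=
  mem_ringHomRange_of_bounded_powers F C hC h

/-! ## L4 -/

section L4

/-- coefficientwise `ℚ`-linear projection `G ↦ (π (lam * Gₙ))ₙ`. -/
noncomputable def projSer (π : ℂ →ₗ[ℚ] ℚ) (lam : ℂ) (G : PowerSeries ℂ) : PowerSeries ℚ :=
  PowerSeries.mk fun n => π (lam * coeff n G)

@[simp] theorem coeff_projSer (π : ℂ →ₗ[ℚ] ℚ) (lam : ℂ) (G : PowerSeries ℂ) (n : ℕ) :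
    coeff n (projSer π lam G) = π (lam * coeff n G) := by
  simp [projSer]

theorem projSer_add (π : ℂ →ₗ[ℚ] ℚ) (lam : ℂ) (G H : PowerSeries ℂ) :
    projSer π lam (G + H) = projSer π lam G + projSer π lam H := by
  ext n; simp [mul_add]

theorem projSer_zero (π : ℂ →ₗ[ℚ] ℚ) (lam : ℂ) : projSer π lam 0 = 0 := by
  ext n; simp

theorem projSer_sum (π : ℂ →ₗ[ℚ] ℚ) (lam : ℂ) {ι : Type*} (s : Finset ι)
    (G : ι → PowerSeries ℂ) :
    projSer π lam (∑ i ∈ s, G i) = ∑ i ∈ s, projSer π lam (G i) := by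
  classical
  induction s using Finset.induction_on with
  | empty => simp [projSer_zero]
  | insert a s ha ih => rw [Finset.sum_insert ha, Finset.sum_insert ha, projSer_add, ih]

theorem projSer_smul (π : ℂ →ₗ[ℚ] ℚ) (lam μ : ℂ) (G : PowerSeries ℂ) :
    projSer π lam (μ • G) = projSer π (lam * μ) G := by
  ext n; simp [mul_assoc]

theorem projSer_map_mul (π : ℂ →ₗ[ℚ] ℚ) (lam : ℂ) (R₀ : PowerSeries ℚ) (G : PowerSeries ℂ) :
    projSer π lam (R₀.map (algebraMap ℚ ℂ) * G) = R₀ * projSer π lam G := by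
  ext n
  rw [coeff_projSer, coeff_mul, coeff_mul, Finset.mul_sum, map_sum]
  refine Finset.sum_congr rfl fun x _ => ?_
  rw [coeff_projSer, coeff_map]
  have : lam * ((algebraMap ℚ ℂ) (coeff x.1 R₀) * coeff x.2 G) =
      (coeff x.1 R₀) • (lam * coeff x.2 G) := by
    rw [Algebra.smul_def]; ring
  rw [this, map_smul, smul_eq_mul]

theorem projSer_one_map (π : ℂ →ₗ[ℚ] ℚ) (hπ : π 1 = 1) (R₀ : PowerSeries ℚ) :
    projSer π 1 (R₀.map (algebraMap ℚ ℂ)) = R₀ := by
  ext n
  rw [coeff_projSer, coeff_map, one_mul]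
  have : (algebraMap ℚ ℂ) (coeff n R₀) = (coeff n R₀) • (1 : ℂ) := by
    rw [Algebra.smul_def, mul_one]
  rw [this, map_smul, hπ, smul_eq_mul, mul_one]

/-- rational power series with bounded denominators -/
noncomputable def bddDen : Submodule ℚ (PowerSeries ℚ) :=
  Submodule.span ℚ (Set.range (PowerSeries.map (Int.castRingHom ℚ)))

theorem exists_nat_smul_mem_of_mem_bddDen {G : PowerSeries ℚ} (hG : G ∈ bddDen) :
    ∃ M : ℕ, 0 < M ∧ (M : ℚ) • G ∈ intSeries := by
  induction hG using Submodule.span_induction with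
  | mem x hx =>
    refine ⟨1, one_pos, ?_⟩
    rw [Nat.cast_one, one_smul]
    obtain ⟨y, rfl⟩ := hx
    exact ⟨y, rfl⟩
  | zero => exact ⟨1, one_pos, by simp⟩
  | add x y _ _ hx hy =>
    obtain ⟨M₁, h1, hx⟩ := hx
    obtain ⟨M₂, h2, hy⟩ := hy
    refine ⟨M₁ * M₂, Nat.mul_pos h1 h2, ?_⟩
    have e : ((M₁ * M₂ : ℕ) : ℚ) • (x + y) =
        (M₂ : PowerSeries ℚ) * ((M₁ : ℚ) • x) + (M₁ : PowerSeries ℚ) * ((M₂ : ℚ) • y) := by
      ext n
      simp only [map_add, coeff_smul, smul_eq_mul, Nat.cast_mul]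
      rw [show (M₂ : PowerSeries ℚ) = PowerSeries.C (M₂ : ℚ) by simp,
        show (M₁ : PowerSeries ℚ) = PowerSeries.C (M₁ : ℚ) by simp]
      simp only [coeff_C_mul, coeff_smul, smul_eq_mul]
      ring
    rw [e]
    exact Subring.add_mem _ (Subring.mul_mem _ (natCast_mem _ _) hx)
      (Subring.mul_mem _ (natCast_mem _ _) hy)
  | smul q x _ hx =>
    obtain ⟨M, hM, hx⟩ := hx
    refine ⟨q.den * M, Nat.mul_pos q.den_pos hM, ?_⟩
    have e : ((q.den * M : ℕ) : ℚ) • (q • x) = (q.num : PowerSeries ℚ) * ((M : ℚ) • x) := by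
      ext n
      rw [show (q.num : PowerSeries ℚ) = PowerSeries.C (q.num : ℚ) by simp]
      simp only [coeff_smul, smul_eq_mul, Nat.cast_mul, coeff_C_mul]
      have hq : (q.den : ℚ) * q = q.num := Rat.den_mul_eq_num q
      calc (q.den : ℚ) * M * (q * coeff n x) = ((q.den : ℚ) * q) * (M * coeff n x) := by ring
        _ = q.num * (M * coeff n x) := by rw [hq]
    rw [e]
    exact Subring.mul_mem _ (intCast_mem _ _) hx

theorem projSer_mem_bddDen (π : ℂ →ₗ[ℚ] ℚ) {D : PowerSeries ℂ}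
    (hD : D ∈ Submodule.span ℂ ZSer) : ∀ lam : ℂ, projSer π lam D ∈ bddDen := by
  induction hD using Submodule.span_induction with
  | mem x hx =>
    intro lam
    obtain ⟨Z, rfl⟩ := hx
    have : projSer π lam (Z.map (Int.castRingHom ℂ)) = (π lam) • Z.map (Int.castRingHom ℚ) := by
      ext n
      simp only [coeff_projSer, coeff_map, coeff_smul, smul_eq_mul, eq_intCast]
      have : lam * ((coeff n Z : ℤ) : ℂ) = ((coeff n Z : ℤ) : ℚ) • lam := by
        rw [Algebra.smul_def]; simp [mul_comm]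
      rw [this, map_smul, smul_eq_mul, mul_comm]
    rw [this]
    exact Submodule.smul_mem _ _ (Submodule.subset_span ⟨Z, rfl⟩)
  | zero => intro lam; rw [projSer_zero]; exact Submodule.zero_mem _
  | add x y _ _ hx hy => intro lam; rw [projSer_add]; exact Submodule.add_mem _ (hx lam) (hy lam)
  | smul μ x _ hx => intro lam; rw [projSer_smul]; exact hx _

end L4

section L4main

/-- `ℚ`-linear retraction `ℂ → ℚ`. -/
theorem exists_retraction : ∃ π : ℂ →ₗ[ℚ] ℚ, π 1 = 1 := by
  have hinj : LinearMap.ker (Algebra.linearMap ℚ ℂ) = ⊥ :=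
    LinearMap.ker_eq_bot.mpr (algebraMap ℚ ℂ).injective
  obtain ⟨g, hg⟩ := LinearMap.exists_leftInverse_of_injective (Algebra.linearMap ℚ ℂ) hinj
  refine ⟨g, ?_⟩
  have := LinearMap.congr_fun hg 1
  simpa using this

/-- integrality step: if `F ^ n + ∑_{j<n} e j * F ^ j = 0` with `e j` integral, and `D * F` and `D`
are integral, then `D ^ (n-1) * F ^ m` is integral for all `m`. -/
theorem pow_mul_pow_mem_intSeries (F D : PowerSeries ℚ) (n : ℕ) (hn : 0 < n)
    (e : ℕ → PowerSeries ℚ) (he : ∀ j < n, e j ∈ intSeries)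
    (hmonic : F ^ n + ∑ j ∈ Finset.range n, e j * F ^ j = 0)
    (hD : D ∈ intSeries) (hDF : D * F ∈ intSeries) :
    ∀ m : ℕ, D ^ (n - 1) * F ^ m ∈ intSeries := by
  intro m
  induction m using Nat.strong_induction_on with
  | _ m ih =>
    by_cases hm : m < n
    · have e1 : D ^ (n - 1) * F ^ m = D ^ (n - 1 - m) * (D * F) ^ m := by
        rw [mul_pow, ← mul_assoc, ← pow_add]
        congr 2
        omega
      rw [e1]
      exact Subring.mul_mem _ (Subring.pow_mem _ hD _) (Subring.pow_mem _ hDF _)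
    · have hFn : F ^ n = - ∑ j ∈ Finset.range n, e j * F ^ j := eq_neg_of_add_eq_zero_left hmonic
      have e1 : F ^ m = F ^ (m - n) * F ^ n := by
        rw [← pow_add]; congr 1; omega
      have e2 : D ^ (n - 1) * F ^ m =
          - ∑ j ∈ Finset.range n, e j * (D ^ (n - 1) * F ^ (m - n + j)) := by
        rw [e1, hFn, mul_neg, mul_neg, Finset.mul_sum, Finset.mul_sum]
        congr 1
        refine Finset.sum_congr rfl fun j _ => ?_
        rw [pow_add]; ring
      rw [e2]
      refine Subring.neg_mem _ (Subring.sum_mem _ fun j hj => ?_)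
      have hj' : j < n := Finset.mem_range.mp hj
      exact Subring.mul_mem _ (he j hj') (ih _ (by omega))

theorem map_rat_mem_ZSer_of_mem_intSeries {G : PowerSeries ℚ} (hG : G ∈ intSeries) :
    G.map (algebraMap ℚ ℂ) ∈ ZSer := by
  obtain ⟨Z, rfl⟩ := hG
  refine ⟨Z, ?_⟩
  ext n
  simp

/-- **L4.** A rational power series `f` which is a quotient `A / D` of two series in the `ℂ`-span
of integral series, and which is a root of a monic polynomial with coefficients in that span, has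
bounded denominators. -/
theorem exists_nat_smul_mem_ZSer (f : PowerSeries ℂ) (hf : f ∈ QSer)
    (D A : PowerSeries ℂ) (hD0 : D ≠ 0) (hD : D ∈ Submodule.span ℂ ZSer)
    (hA : A ∈ Submodule.span ℂ ZSer) (hfD : f * D = A)
    (n : ℕ) (c : ℕ → PowerSeries ℂ) (hc : ∀ j < n, c j ∈ Submodule.span ℂ ZSer)
    (hmonic : f ^ n + ∑ j ∈ Finset.range n, c j * f ^ j = 0) :
    ∃ M : ℕ, 0 < M ∧ (M : ℂ) • f ∈ ZSer := by
  classical
  obtain ⟨f₀, rfl⟩ := hf
  obtain ⟨π, hπ⟩ := exists_retraction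
  -- `n > 0`
  have hn : 0 < n := by
    rcases Nat.eq_zero_or_pos n with h0 | h0
    · subst h0
      simp at hmonic
    · exact h0
  -- the quotient relation over `ℚ`
  obtain ⟨m, hm⟩ : ∃ m, coeff m D ≠ 0 := by
    by_contra hall
    push Not at hall
    exact hD0 (PowerSeries.ext fun k => by simpa using hall k)
  set lam : ℂ := (coeff m D)⁻¹ with hlam
  set D₁ := projSer π lam D with hD₁
  set A₁ := projSer π lam A with hA₁
  have hD₁0 : D₁ ≠ 0 := by
    intro h
    have : coeff m D₁ = 1 := by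
      rw [hD₁, coeff_projSer, hlam, inv_mul_cancel₀ hm, hπ]
    rw [h] at this
    simp at this
  have hfD₁ : f₀ * D₁ = A₁ := by
    rw [hD₁, hA₁, ← projSer_map_mul, hfD]
  obtain ⟨MD, hMD, hMD'⟩ := exists_nat_smul_mem_of_mem_bddDen (projSer_mem_bddDen π hD lam)
  obtain ⟨MA, hMA, hMA'⟩ := exists_nat_smul_mem_of_mem_bddDen (projSer_mem_bddDen π hA lam)
  set D₂ : PowerSeries ℚ := ((MD * MA : ℕ) : ℚ) • D₁ with hD₂
  have smul_eq : ∀ (q : ℚ) (G : PowerSeries ℚ), q • G = PowerSeries.C q * G := by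
    intro q G; ext k; simp
  have hD₂mem : D₂ ∈ intSeries := by
    have : D₂ = (MA : PowerSeries ℚ) * ((MD : ℚ) • D₁) := by
      rw [hD₂, smul_eq, smul_eq, show (MA : PowerSeries ℚ) = PowerSeries.C (MA : ℚ) by simp]
      push_cast
      rw [map_mul]; ring
    rw [this]
    exact Subring.mul_mem _ (natCast_mem _ _) hMD'
  have hD₂0 : D₂ ≠ 0 := by
    rw [hD₂, smul_eq]
    refine mul_ne_zero ?_ hD₁0
    rw [Ne, map_eq_zero_iff _ PowerSeries.C_injective]
    have := Nat.mul_pos hMD hMA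
    exact_mod_cast this.ne'
  have hD₂f : D₂ * f₀ ∈ intSeries := by
    have : D₂ * f₀ = (MD : PowerSeries ℚ) * ((MA : ℚ) • A₁) := by
      rw [hD₂, smul_eq, smul_eq, show (MD : PowerSeries ℚ) = PowerSeries.C (MD : ℚ) by simp,
        ← hfD₁]
      push_cast
      rw [map_mul]; ring
    rw [this]
    exact Subring.mul_mem _ (natCast_mem _ _) hMA'
  -- the monic equation over `ℚ`
  set c' : ℕ → PowerSeries ℚ := fun j => projSer π 1 (c j) with hc'
  have hmonic' : f₀ ^ n + ∑ j ∈ Finset.range n, c' j * f₀ ^ j = 0 := by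
    have h1 := congrArg (projSer π 1) hmonic
    rw [projSer_zero, projSer_add, projSer_sum, ← map_pow, projSer_one_map π hπ] at h1
    rw [← h1]
    congr 1
    refine Finset.sum_congr rfl fun j _ => ?_
    rw [← map_pow, mul_comm (c j), projSer_map_mul, mul_comm]
  have hc'mem : ∀ j, ∃ M : ℕ, 0 < M ∧ (j < n → (M : ℚ) • c' j ∈ intSeries) := by
    intro j
    by_cases hj : j < n
    · obtain ⟨M, hM, hM'⟩ := exists_nat_smul_mem_of_mem_bddDen (projSer_mem_bddDen π (hc j hj) 1)
      exact ⟨M, hM, fun _ => hM'⟩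
    · exact ⟨1, one_pos, fun h => absurd h hj⟩
  choose Mj hMjpos hMj using hc'mem
  set M₂ : ℕ := ∏ j ∈ Finset.range n, Mj j with hM₂
  have hM₂pos : 0 < M₂ := Finset.prod_pos fun j _ => hMjpos j
  have hM₂c : ∀ j < n, (M₂ : ℚ) • c' j ∈ intSeries := by
    intro j hj
    obtain ⟨k, hk⟩ : Mj j ∣ M₂ := Finset.dvd_prod_of_mem _ (Finset.mem_range.mpr hj)
    have : (M₂ : ℚ) • c' j = (k : PowerSeries ℚ) * ((Mj j : ℚ) • c' j) := by
      rw [smul_eq, smul_eq, show (k : PowerSeries ℚ) = PowerSeries.C (k : ℚ) by simp, hk]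
      push_cast
      rw [map_mul]; ring
    rw [this]
    exact Subring.mul_mem _ (natCast_mem _ _) (hMj j hj)
  set F : PowerSeries ℚ := (M₂ : ℚ) • f₀ with hF
  set e : ℕ → PowerSeries ℚ := fun j => ((M₂ : ℚ) ^ (n - j)) • c' j with he
  have hemem : ∀ j < n, e j ∈ intSeries := by
    intro j hj
    have : e j = ((M₂ ^ (n - j - 1) : ℕ) : PowerSeries ℚ) * ((M₂ : ℚ) • c' j) := by
      rw [he]
      simp only
      rw [smul_eq, smul_eq,
        show ((M₂ ^ (n - j - 1) : ℕ) : PowerSeries ℚ) = PowerSeries.C ((M₂ : ℚ) ^ (n - j - 1)) by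
          simp,
        ← mul_assoc, ← map_mul, ← pow_succ]
      congr 3
      omega
    rw [this]
    exact Subring.mul_mem _ (natCast_mem _ _) (hM₂c j hj)
  have hmonicF : F ^ n + ∑ j ∈ Finset.range n, e j * F ^ j = 0 := by
    have : F ^ n + ∑ j ∈ Finset.range n, e j * F ^ j =
        PowerSeries.C ((M₂ : ℚ) ^ n) * (f₀ ^ n + ∑ j ∈ Finset.range n, c' j * f₀ ^ j) := by
      rw [mul_add, Finset.mul_sum, hF, smul_eq, mul_pow, ← map_pow]
      congr 1
      refine Finset.sum_congr rfl fun j hj => ?_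
      have hj' : j < n := Finset.mem_range.mp hj
      rw [he]
      simp only
      rw [smul_eq, mul_pow, ← map_pow]
      have : (M₂ : ℚ) ^ n = (M₂ : ℚ) ^ (n - j) * (M₂ : ℚ) ^ j := by
        rw [← pow_add]; congr 1; omega
      rw [this, map_mul]
      ring
    rw [this, hmonic', mul_zero]
  have hD₂F : D₂ * F ∈ intSeries := by
    have : D₂ * F = (M₂ : PowerSeries ℚ) * (D₂ * f₀) := by
      rw [hF, smul_eq, show (M₂ : PowerSeries ℚ) = PowerSeries.C (M₂ : ℚ) by simp]
      ring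
    rw [this]
    exact Subring.mul_mem _ (natCast_mem _ _) hD₂f
  have hpow := pow_mul_pow_mem_intSeries F D₂ n hn e hemem hmonicF hD₂mem hD₂F
  -- apply L2
  obtain ⟨Z₂, hZ₂⟩ := hD₂mem
  have hZ₂0 : Z₂ ≠ 0 := by
    rintro rfl
    apply hD₂0
    rw [← hZ₂, map_zero]
  have hFmem : F ∈ (PowerSeries.map (Int.castRingHom ℚ)).range := by
    refine mem_ringHomRange_of_bounded_powers F (Z₂ ^ (n - 1)) (pow_ne_zero _ hZ₂0) fun k => ?_
    rw [map_pow, hZ₂]
    exact hpow k
  refine ⟨M₂, hM₂pos, ?_⟩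
  have := map_rat_mem_ZSer_of_mem_intSeries hFmem
  convert this using 1
  ext k
  simp [hF]

end L4main

end Fermat.Agent.S23
end MergeWrap_S23_BoundedDenom

section MergeWrap_S23_ConverseExtend -- from S23/ConverseExtend.lean

/-!
# S23, step D (converse), part 2: division of holomorphic functions under a local bound

If `a`, `d` are holomorphic on a connected open set `U ⊆ ℂ`, `d ≢ 0` and `a / d` is locally bounded
where defined, then there is a holomorphic `F` on `U` with `F * d = a`.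
-/

namespace Fermat.Agent.S23Converse

open Filter Topology Set Metric Function

/-- Zeros of a not identically vanishing holomorphic function on a connected open set are
isolated. -/
lemma eventually_ne_zero_of_differentiableOn {U : Set ℂ} (hU : IsOpen U) (hUc : IsPreconnected U)
    {d : ℂ → ℂ} (hd : DifferentiableOn ℂ d U) (hne : ∃ w ∈ U, d w ≠ 0)
    {z₀ : ℂ} (hz₀ : z₀ ∈ U) : ∀ᶠ z in 𝓝[≠] z₀, d z ≠ 0 := by
  have hana : AnalyticOnNhd ℂ d U := hd.analyticOnNhd hU
  rcases (hana z₀ hz₀).eventually_eq_zero_or_eventually_ne_zero with h | h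
  · exfalso
    obtain ⟨w, hw, hdw⟩ := hne
    exact hdw (hana.eqOn_zero_of_preconnected_of_eventuallyEq_zero hUc hz₀ h hw)
  · exact h

/-- A continuous function killed by a nonzero holomorphic function vanishes. -/
lemma eq_zero_of_mul_eq_zero_of_differentiableOn {U : Set ℂ} (hU : IsOpen U)
    (hUc : IsPreconnected U) {u d : ℂ → ℂ} (hu : ContinuousOn u U)
    (hd : DifferentiableOn ℂ d U) (hne : ∃ w ∈ U, d w ≠ 0)
    (h : ∀ z ∈ U, u z * d z = 0) {z₀ : ℂ} (hz₀ : z₀ ∈ U) : u z₀ = 0 := by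
  have h1 : ∀ᶠ z in 𝓝[≠] z₀, d z ≠ 0 := eventually_ne_zero_of_differentiableOn hU hUc hd hne hz₀
  have h2 : ∀ᶠ z in 𝓝[≠] z₀, z ∈ U := nhdsWithin_le_nhds (hU.mem_nhds hz₀)
  have h3 : ∀ᶠ z in 𝓝[≠] z₀, u z = 0 := by
    filter_upwards [h1, h2] with z hz hzU
    exact (mul_eq_zero.mp (h z hzU)).resolve_right hz
  have hcont : Tendsto u (𝓝[≠] z₀) (𝓝 (u z₀)) :=
    ((hu.continuousAt (hU.mem_nhds hz₀)).tendsto).mono_left nhdsWithin_le_nhds
  have hzero : Tendsto u (𝓝[≠] z₀) (𝓝 0) := by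
    refine (tendsto_congr' ?_).mpr tendsto_const_nhds
    exact h3
  exact tendsto_nhds_unique hcont hzero

/-- **Division lemma.** If `a`, `d` are holomorphic on a connected open `U`, `d ≢ 0` on `U`, and
`‖a / d‖ ≤ B` on `{d ≠ 0}` for some function `B` continuous on `U`, then `a = F * d` for a
holomorphic `F` on `U`. -/
theorem exists_differentiableOn_mul_eq {U : Set ℂ} (hU : IsOpen U) (hUc : IsPreconnected U)
    {a d : ℂ → ℂ} (ha : DifferentiableOn ℂ a U) (hd : DifferentiableOn ℂ d U)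
    (hne : ∃ w ∈ U, d w ≠ 0) {B : ℂ → ℝ} (hB : ContinuousOn B U)
    (hbound : ∀ z ∈ U, d z ≠ 0 → ‖a z / d z‖ ≤ B z) :
    ∃ F : ℂ → ℂ, DifferentiableOn ℂ F U ∧ ∀ z ∈ U, F z * d z = a z := by
  set q : ℂ → ℂ := fun z => a z / d z with hq
  set F : ℂ → ℂ := fun z => limUnder (𝓝[≠] z) q with hF
  -- `F = q` where `d ≠ 0`
  have hFq : ∀ z ∈ U, d z ≠ 0 → F z = q z := by
    intro z hz hdz
    have hcont : ContinuousAt q z :=
      ((ha.differentiableAt (hU.mem_nhds hz)).continuousAt).div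
        ((hd.differentiableAt (hU.mem_nhds hz)).continuousAt) hdz
    exact (hcont.tendsto.mono_left nhdsWithin_le_nhds).limUnder_eq
  -- local structure
  have hloc : ∀ z₀ ∈ U, ∃ r > 0, ball z₀ r ⊆ U ∧
      DifferentiableOn ℂ (update q z₀ (limUnder (𝓝[≠] z₀) q)) (ball z₀ r) ∧
      ∀ z ∈ ball z₀ r, F z = update q z₀ (limUnder (𝓝[≠] z₀) q) z := by
    intro z₀ hz₀
    have h1 : ∀ᶠ z in 𝓝 z₀, z ≠ z₀ → d z ≠ 0 :=
      eventually_nhdsWithin_iff.mp (eventually_ne_zero_of_differentiableOn hU hUc hd hne hz₀)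
    have h2 : ∀ᶠ z in 𝓝 z₀, z ∈ U := hU.mem_nhds hz₀
    obtain ⟨ε, hε, hball⟩ := Metric.eventually_nhds_iff_ball.mp (h1.and h2)
    have hr : 0 < ε / 2 := half_pos hε
    have hcb : closedBall z₀ (ε / 2) ⊆ ball z₀ ε := closedBall_subset_ball (half_lt_self hε)
    have hcbU : closedBall z₀ (ε / 2) ⊆ U := fun z hz => (hball z (hcb hz)).2
    have hbU : ball z₀ (ε / 2) ⊆ U := ball_subset_closedBall.trans hcbU
    have hdne : ∀ z ∈ ball z₀ (ε / 2), z ≠ z₀ → d z ≠ 0 := fun z hz hzz =>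
      (hball z (hcb (ball_subset_closedBall hz))).1 hzz
    obtain ⟨M, hM⟩ : ∃ M, ∀ z ∈ closedBall z₀ (ε / 2), B z ≤ M := by
      obtain ⟨M, hM⟩ := (isCompact_closedBall z₀ (ε / 2)).bddAbove_image (hB.mono hcbU)
      exact ⟨M, fun z hz => hM (mem_image_of_mem _ hz)⟩
    have hqd : DifferentiableOn ℂ q (ball z₀ (ε / 2) \ {z₀}) := by
      intro z hz
      have hzU : z ∈ U := hbU hz.1
      have hdz : d z ≠ 0 := hdne z hz.1 (by simpa using hz.2)
      exact ((ha.differentiableAt (hU.mem_nhds hzU)).div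
        (hd.differentiableAt (hU.mem_nhds hzU)) hdz).differentiableWithinAt
    have hqb : BddAbove (norm ∘ q '' (ball z₀ (ε / 2) \ {z₀})) := by
      refine ⟨M, ?_⟩
      rintro _ ⟨z, hz, rfl⟩
      have hzU : z ∈ U := hbU hz.1
      have hdz : d z ≠ 0 := hdne z hz.1 (by simpa using hz.2)
      exact (hbound z hzU hdz).trans (hM z (ball_subset_closedBall hz.1))
    refine ⟨ε / 2, hr, hbU, ?_, ?_⟩
    · exact Complex.differentiableOn_update_limUnder_of_bddAbove (ball_mem_nhds z₀ hr) hqd hqb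
    · intro z hz
      rcases eq_or_ne z z₀ with rfl | hzz
      · simp [hF]
      · rw [update_of_ne hzz]
        exact hFq z (hbU hz) (hdne z hz hzz)
  have hFdiff : DifferentiableOn ℂ F U := by
    intro z₀ hz₀
    obtain ⟨r, hr, -, hdiff, heq⟩ := hloc z₀ hz₀
    have hat : DifferentiableAt ℂ (update q z₀ (limUnder (𝓝[≠] z₀) q)) z₀ :=
      hdiff.differentiableAt (ball_mem_nhds z₀ hr)
    have hev : F =ᶠ[𝓝 z₀] update q z₀ (limUnder (𝓝[≠] z₀) q) := by
      filter_upwards [ball_mem_nhds z₀ hr] with z hz using heq z hz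
    exact (hat.congr_of_eventuallyEq hev).differentiableWithinAt
  refine ⟨F, hFdiff, ?_⟩
  intro z hz
  by_cases hdz : d z = 0
  · -- `F * d - a` is continuous, and `(F * d - a) * d = 0` off the zeros of `d`
    have hu : ContinuousOn (fun z => F z * d z - a z) U :=
      (hFdiff.continuousOn.mul hd.continuousOn).sub ha.continuousOn
    have hzero : ∀ w ∈ U, (F w * d w - a w) * d w = 0 := by
      intro w hw
      by_cases hdw : d w = 0
      · rw [hdw, mul_zero]
      · rw [hFq w hw hdw, hq]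
        simp only
        rw [div_mul_cancel₀ _ hdw, sub_self, zero_mul]
    have := eq_zero_of_mul_eq_zero_of_differentiableOn hU hUc hu hd hne hzero hz
    exact sub_eq_zero.mp this
  · rw [hFq z hz hdz, hq]
    simp only
    exact div_mul_cancel₀ _ hdz

end Fermat.Agent.S23Converse
end MergeWrap_S23_ConverseExtend

section MergeWrap_S23_ConverseRootBound -- from S23/ConverseRootBound.lean

/-!
# S23, step D (converse), part 1: elementary root bounds for monic polynomial relations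
-/

namespace Fermat.Agent.S23Converse

open Finset

/-- If `u ^ n + ∑ a i * u ^ i = 0` then `‖u‖ ≤ max 1 (∑ ‖a i‖)`. -/
lemma norm_le_of_monic_root {n : ℕ} (u : ℂ) (a : Fin n → ℂ)
    (h : u ^ n + ∑ i : Fin n, a i * u ^ (i : ℕ) = 0) :
    ‖u‖ ≤ max 1 (∑ i : Fin n, ‖a i‖) := by
  by_cases hu : ‖u‖ ≤ 1
  · exact le_max_of_le_left hu
  rw [not_le] at hu
  refine le_max_of_le_right ?_
  have hpos : 0 < ‖u‖ := lt_trans one_pos hu
  rcases Nat.eq_zero_or_pos n with rfl | hn
  · simp at h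
  have h1 : ‖u‖ ^ n = ‖∑ i : Fin n, a i * u ^ (i : ℕ)‖ := by
    rw [← norm_pow, eq_neg_of_add_eq_zero_left h, norm_neg]
  have h2 : ‖∑ i : Fin n, a i * u ^ (i : ℕ)‖ ≤ ∑ i : Fin n, ‖a i‖ * ‖u‖ ^ (n - 1) := by
    refine (norm_sum_le _ _).trans (Finset.sum_le_sum fun i _ => ?_)
    rw [norm_mul, norm_pow]
    refine mul_le_mul_of_nonneg_left ?_ (norm_nonneg _)
    exact pow_le_pow_right₀ hu.le (by omega)
  rw [← Finset.sum_mul] at h2
  have h3 : ‖u‖ ^ n = ‖u‖ * ‖u‖ ^ (n - 1) := by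
    rw [← pow_succ']; congr 1; omega
  have h4 : ‖u‖ * ‖u‖ ^ (n - 1) ≤ (∑ i : Fin n, ‖a i‖) * ‖u‖ ^ (n - 1) := by
    rw [← h3, h1]; exact h2
  exact le_of_mul_le_mul_right h4 (pow_pos hpos _)

/-- If `u ^ n + ∑ a i * u ^ i = 0`, `0 < ε ≤ 1` and `∑ ‖a i‖ < ε ^ n` then `‖u‖ < ε`. -/
lemma norm_lt_of_monic_root_of_small {n : ℕ} (u : ℂ) (a : Fin n → ℂ)
    (h : u ^ n + ∑ i : Fin n, a i * u ^ (i : ℕ) = 0) {ε : ℝ} (hε : 0 < ε) (hε1 : ε ≤ 1)
    (hS : ∑ i : Fin n, ‖a i‖ < ε ^ n) : ‖u‖ < ε := by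
  rcases Nat.eq_zero_or_pos n with rfl | hn
  · simp at h
  have hεn : ε ^ n ≤ 1 := pow_le_one₀ hε.le hε1
  have hle := norm_le_of_monic_root u a h
  have hu1 : ‖u‖ ≤ 1 := by
    refine hle.trans (max_le le_rfl ?_)
    exact (hS.trans_le hεn).le
  have h1 : ‖u‖ ^ n = ‖∑ i : Fin n, a i * u ^ (i : ℕ)‖ := by
    rw [← norm_pow, eq_neg_of_add_eq_zero_left h, norm_neg]
  have h2 : ‖∑ i : Fin n, a i * u ^ (i : ℕ)‖ ≤ ∑ i : Fin n, ‖a i‖ := by
    refine (norm_sum_le _ _).trans (Finset.sum_le_sum fun i _ => ?_)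
    rw [norm_mul, norm_pow]
    exact mul_le_of_le_one_right (norm_nonneg _) (pow_le_one₀ (norm_nonneg _) hu1)
  have h3 : ‖u‖ ^ n < ε ^ n := by rw [h1]; exact h2.trans_lt hS
  exact lt_of_pow_lt_pow_left₀ n hε.le h3

end Fermat.Agent.S23Converse
end MergeWrap_S23_ConverseRootBound

section MergeWrap_S23_ConverseUHP -- from S23/ConverseUHP.lean

/-!
# S23, step D (converse), part 3: the division lemma on the upper half plane
-/

namespace Fermat.Agent.S23Converse

open Filter Topology Set Metric Function UpperHalfPlane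
open scoped Manifold

lemma isPreconnected_upperHalfPlaneSet : IsPreconnected {z : ℂ | 0 < z.im} :=
  (convex_halfSpace_im_gt 0).isPreconnected

lemma continuousOn_comp_ofComplex {X : Type*} [TopologicalSpace X] {u : ℍ → X}
    (hu : Continuous u) : ContinuousOn (u ∘ ofComplex) {z : ℂ | 0 < z.im} := by
  intro z hz
  have h1 : ContinuousAt ofComplex z :=
    ofComplex.continuousAt (by
      rw [show ofComplex.source = {z : ℂ | 0 < z.im} from ?_]
      · exact hz
      · ext w
        simp [ofComplex, IsOpenEmbedding.toOpenPartialHomeomorph])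
  exact (hu.continuousAt.comp h1).continuousWithinAt

/-- A continuous function on `ℍ` killed by a nonzero holomorphic function vanishes. -/
theorem eq_zero_of_mul_eq_zero {u d : ℍ → ℂ} (hu : Continuous u) (hd : MDiff d)
    (hne : ∃ τ, d τ ≠ 0) (h : ∀ τ, u τ * d τ = 0) (τ : ℍ) : u τ = 0 := by
  have hd' : DifferentiableOn ℂ (d ∘ ofComplex) {z : ℂ | 0 < z.im} :=
    mdifferentiable_iff.mp hd
  have hne' : ∃ w ∈ {z : ℂ | 0 < z.im}, (d ∘ ofComplex) w ≠ 0 := by
    obtain ⟨σ, hσ⟩ := hne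
    exact ⟨σ, σ.im_pos, by simpa using hσ⟩
  have h' : ∀ z ∈ {z : ℂ | 0 < z.im}, (u ∘ ofComplex) z * (d ∘ ofComplex) z = 0 :=
    fun z _ => h (ofComplex z)
  have := eq_zero_of_mul_eq_zero_of_differentiableOn isOpen_upperHalfPlaneSet
    isPreconnected_upperHalfPlaneSet (continuousOn_comp_ofComplex hu) hd' hne' h'
    (z₀ := (τ : ℂ)) τ.im_pos
  simpa using this

/-- **Division lemma on `ℍ`.** -/
theorem exists_mdifferentiable_mul_eq {a d : ℍ → ℂ} (ha : MDiff a) (hd : MDiff d)
    (hne : ∃ τ, d τ ≠ 0) {B : ℍ → ℝ} (hB : Continuous B)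
    (hbound : ∀ τ, d τ ≠ 0 → ‖a τ / d τ‖ ≤ B τ) :
    ∃ f : ℍ → ℂ, MDiff f ∧ ∀ τ, f τ * d τ = a τ := by
  have ha' : DifferentiableOn ℂ (a ∘ ofComplex) {z : ℂ | 0 < z.im} :=
    mdifferentiable_iff.mp ha
  have hd' : DifferentiableOn ℂ (d ∘ ofComplex) {z : ℂ | 0 < z.im} :=
    mdifferentiable_iff.mp hd
  have hne' : ∃ w ∈ {z : ℂ | 0 < z.im}, (d ∘ ofComplex) w ≠ 0 := by
    obtain ⟨σ, hσ⟩ := hne
    exact ⟨σ, σ.im_pos, by simpa using hσ⟩
  obtain ⟨F, hF, hFeq⟩ := exists_differentiableOn_mul_eq isOpen_upperHalfPlaneSet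
    isPreconnected_upperHalfPlaneSet ha' hd' hne' (continuousOn_comp_ofComplex hB)
    (fun z _ hz => hbound (ofComplex z) hz)
  refine ⟨fun τ => F τ, ?_, ?_⟩
  · rw [mdifferentiable_iff]
    refine hF.congr ?_
    intro z hz
    simp only [comp_apply]
    rw [ofComplex_apply_of_im_pos hz]
  · intro τ
    have := hFeq τ τ.im_pos
    simpa using this

end Fermat.Agent.S23Converse
end MergeWrap_S23_ConverseUHP

section MergeWrap_S23_ConverseMain -- from S23/ConverseMain.lean

/-!
# S23, step D (converse), part 4: from certificates to a cusp form (function level)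

Let `Γ` be an arithmetic subgroup, `D ≠ 0` a modular form of weight `w` and `A` a modular form of
weight `w + k` on `Γ`.  Assume the monic relation
`A ^ n + ∑ i < n, c i * A ^ i * D ^ (n - i) = 0` where the `c i` are continuous functions on `ℍ`,
invariant of weight `k * (n - i)` under `SL(2, ℤ)` and tending to `0` at `i∞`.
Then `A = f * D` for a cusp form `f` of weight `k` on `Γ`.
-/

namespace Fermat.Agent.S23Converse

open Filter Topology Set Function UpperHalfPlane ModularForm Matrix.SpecialLinearGroup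
open scoped Manifold MatrixGroups

section relation

variable {n : ℕ} (c : Fin n → ℍ → ℂ)

/-- The monic relation for the quotient, off the zeros of `D`. -/
lemma quot_relation {a d : ℂ} (cτ : Fin n → ℂ) (hd : d ≠ 0)
    (hrel : a ^ n + ∑ i : Fin n, cτ i * a ^ (i : ℕ) * d ^ (n - (i : ℕ)) = 0) :
    (a / d) ^ n + ∑ i : Fin n, cτ i * (a / d) ^ (i : ℕ) = 0 := by
  have hdn : d ^ n ≠ 0 := pow_ne_zero _ hd
  have h1 : ((a / d) ^ n + ∑ i : Fin n, cτ i * (a / d) ^ (i : ℕ)) * d ^ n = 0 := by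
    rw [add_mul, Finset.sum_mul, div_pow, div_mul_cancel₀ _ hdn, ← hrel]
    congr 1
    refine Finset.sum_congr rfl fun i _ => ?_
    have hi : (i : ℕ) ≤ n := i.2.le
    have : d ^ n = d ^ (i : ℕ) * d ^ (n - (i : ℕ)) := by
      rw [← pow_add]; congr 1; omega
    rw [this, div_pow]
    field_simp
  exact (mul_eq_zero.mp h1).resolve_right hdn

end relation

/-- **Step D, function level.** -/
theorem exists_cuspForm_of_mul_eq
    {Γ : Subgroup (GL (Fin 2) ℝ)} [Γ.IsArithmetic] {k w : ℤ}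
    (D : ModularForm Γ w) (hD : ∃ τ, D τ ≠ 0) (A : ModularForm Γ (w + k))
    {n : ℕ} (c : Fin n → ℍ → ℂ)
    (hc_cont : ∀ i, Continuous (c i))
    (hc_slash : ∀ (i : Fin n) (γ : SL(2, ℤ)), c i ∣[k * ((n : ℤ) - (i : ℕ))] γ = c i)
    (hc_zero : ∀ i, IsZeroAtImInfty (c i))
    (hrel : ∀ τ : ℍ, A τ ^ n + ∑ i : Fin n, c i τ * A τ ^ (i : ℕ) * D τ ^ (n - (i : ℕ)) = 0) :
    ∃ f : CuspForm Γ k, ∀ τ, f τ * D τ = A τ := by
  -- the bound
  set B : ℍ → ℝ := fun τ => max 1 (∑ i : Fin n, ‖c i τ‖) with hB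
  have hBcont : Continuous B :=
    continuous_const.max (continuous_finsetSum _ fun i _ => (hc_cont i).norm)
  have hbound : ∀ τ, D τ ≠ 0 → ‖A τ / D τ‖ ≤ B τ := fun τ hτ =>
    norm_le_of_monic_root _ _ (quot_relation (fun i => c i τ) hτ (hrel τ))
  obtain ⟨f, hf, hfeq⟩ := exists_mdifferentiable_mul_eq (a := ⇑A) (d := ⇑D)
    (ModularFormClass.holo A) (ModularFormClass.holo D) hD hBcont hbound
  -- the monic relation for `f`
  have hfrel : ∀ τ, f τ ^ n + ∑ i : Fin n, c i τ * f τ ^ (i : ℕ) = 0 := by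
    have hcont : Continuous fun τ => f τ ^ n + ∑ i : Fin n, c i τ * f τ ^ (i : ℕ) :=
      (hf.continuous.pow n).add
        (continuous_finsetSum _ fun i _ => (hc_cont i).mul (hf.continuous.pow _))
    have hDn : MDiff fun τ => D τ ^ n := (ModularFormClass.holo D).pow n
    refine eq_zero_of_mul_eq_zero hcont hDn ?_ ?_
    · obtain ⟨τ, hτ⟩ := hD
      exact ⟨τ, pow_ne_zero _ hτ⟩
    · intro τ
      rw [add_mul, Finset.sum_mul, ← mul_pow, hfeq, ← hrel τ]
      congr 1
      refine Finset.sum_congr rfl fun i _ => ?_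
      have hi : (i : ℕ) ≤ n := i.2.le
      have : D τ ^ n = D τ ^ (i : ℕ) * D τ ^ (n - (i : ℕ)) := by
        rw [← pow_add]; congr 1; omega
      rw [this, ← hfeq τ]
      ring
  -- slash invariance
  have hslash : ∀ g ∈ Γ, f ∣[k] g = f := by
    intro g hg
    have hdet : |(g.det : ℝ)| = 1 := Subgroup.HasDetPlusMinusOne.abs_det hg
    have hfD : (f * ⇑D) = ⇑A := funext hfeq
    have h1 : (f * ⇑D) ∣[k + w] g = (f ∣[k] g) * ⇑D := by
      rw [ModularForm.mul_slash, hdet, one_smul, SlashInvariantFormClass.slash_action_eq D g hg]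
    have h2 : (⇑A : ℍ → ℂ) ∣[k + w] g = ⇑A := by
      have := SlashInvariantFormClass.slash_action_eq A g hg
      rw [add_comm]
      exact this
    have h3 : ∀ τ, ((f ∣[k] g) τ - f τ) * D τ = 0 := by
      intro τ
      have := congrFun (h1.symm.trans ((congrArg (· ∣[k + w] g) hfD).trans h2)) τ
      simp only [Pi.mul_apply] at this
      rw [sub_mul, this, hfeq, sub_self]
    have hcont : Continuous fun τ => (f ∣[k] g) τ - f τ :=
      ((hf.slash k g).continuous).sub hf.continuous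
    funext τ
    exact sub_eq_zero.mp (eq_zero_of_mul_eq_zero hcont (ModularFormClass.holo D) hD h3 τ)
  -- vanishing at cusps
  have hzero : ∀ γ : SL(2, ℤ), IsZeroAtImInfty (f ∣[k] γ) := by
    intro γ
    -- relation for `f ∣[k] γ`
    have hγrel : ∀ τ, (f ∣[k] γ) τ ^ n + ∑ i : Fin n, c i τ * (f ∣[k] γ) τ ^ (i : ℕ) = 0 := by
      intro τ
      have hden : denom γ τ ≠ 0 := denom_ne_zero γ τ
      have h0 := hfrel (γ • τ)
      have hci : ∀ i : Fin n, c i (γ • τ) = c i τ * denom γ τ ^ (k * ((n : ℤ) - (i : ℕ))) := by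
        intro i
        have := congrFun (hc_slash i γ) τ
        rw [SL_slash_apply] at this
        rw [← this, mul_assoc, ← zpow_add₀ hden]
        simp
      rw [SL_slash_apply]
      have key : (f (γ • τ) * denom γ τ ^ (-k)) ^ n +
          ∑ i : Fin n, c i τ * (f (γ • τ) * denom γ τ ^ (-k)) ^ (i : ℕ) =
          (f (γ • τ) ^ n + ∑ i : Fin n, c i (γ • τ) * f (γ • τ) ^ (i : ℕ)) *
            (denom γ τ ^ (-k)) ^ n := by
        rw [add_mul, Finset.sum_mul, mul_pow]
        congr 1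
        refine Finset.sum_congr rfl fun i _ => ?_
        rw [hci i, mul_pow]
        have hi : (i : ℕ) ≤ n := i.2.le
        have hz : denom γ τ ^ (k * ((n : ℤ) - (i : ℕ))) * (denom γ τ ^ (-k)) ^ n =
            (denom γ τ ^ (-k)) ^ (i : ℕ) := by
          rw [← zpow_natCast (denom γ τ ^ (-k)) n, ← zpow_natCast (denom γ τ ^ (-k)) (i : ℕ),
            ← zpow_mul, ← zpow_mul, ← zpow_add₀ hden]
          congr 1
          ring
        calc c i τ * (f (γ • τ) ^ (i : ℕ) * (denom γ τ ^ (-k)) ^ (i : ℕ))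
            = c i τ * f (γ • τ) ^ (i : ℕ) * (denom γ τ ^ (-k)) ^ (i : ℕ) := by ring
          _ = c i τ * f (γ • τ) ^ (i : ℕ) *
              (denom γ τ ^ (k * ((n : ℤ) - (i : ℕ))) * (denom γ τ ^ (-k)) ^ n) := by rw [hz]
          _ = _ := by ring
      rw [key, h0, zero_mul]
    -- the limit
    rw [IsZeroAtImInfty, ZeroAtFilter, Metric.tendsto_nhds]
    intro ε hε
    set ε' : ℝ := min ε 1 with hε'
    have hε'pos : 0 < ε' := lt_min hε one_pos
    have hsum : Tendsto (fun τ => ∑ i : Fin n, ‖c i τ‖) atImInfty (𝓝 0) := by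
      have : Tendsto (fun τ => ∑ i : Fin n, ‖c i τ‖) atImInfty (𝓝 (∑ _i : Fin n, (0 : ℝ))) :=
        tendsto_finsetSum _ fun i _ => by
          have := (hc_zero i)
          rw [IsZeroAtImInfty, ZeroAtFilter] at this
          simpa using this.norm
      simpa using this
    have hev : ∀ᶠ τ in atImInfty, ∑ i : Fin n, ‖c i τ‖ < ε' ^ n :=
      hsum.eventually (gt_mem_nhds (pow_pos hε'pos n))
    filter_upwards [hev] with τ hτ
    rw [dist_zero_right]
    exact (norm_lt_of_monic_root_of_small _ _ (hγrel τ) hε'pos (min_le_right _ _) hτ).trans_le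
      (min_le_left _ _)
  refine ⟨{ toFun := f
            slash_action_eq' := hslash
            holo' := hf
            zero_at_cusps' := ?_ }, hfeq⟩
  intro c hc
  rw [Subgroup.IsArithmetic.isCusp_iff_isCusp_SL2Z] at hc
  rw [OnePoint.isZeroAt_iff_forall_SL2Z hc]
  intro γ _
  exact hzero γ

end Fermat.Agent.S23Converse
end MergeWrap_S23_ConverseMain

section MergeWrap_S23_Descent -- from S23/Descent.lean

/-!
# S23, steps L1 and L3 (pure algebra): Galois descent for finite-dimensional spaces of power series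
Owner: helper92.
-/

set_option autoImplicit false

namespace Fermat.Agent.S23

open MvPolynomial in
/-- General transport: a ring automorphism of the polynomial ring on a transcendence basis
extends to a ring automorphism of `ℂ`. -/
theorem exists_ringEquiv_of_mvPolynomial_equiv {R : Type*} [Field R] [Algebra R ℂ]
    {ι : Type*} (v : ι → ℂ) (hv : IsTranscendenceBasis R v)
    (e : MvPolynomial ι R ≃+* MvPolynomial ι R) :
    ∃ τ : ℂ ≃+* ℂ, ∀ P : MvPolynomial ι R, τ (aeval v P) = aeval v (e P) := by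
  have := IsAlgClosed.isAlgClosure_of_transcendence_basis v hv
  let A := Algebra.adjoin R (Set.range v)
  let a : MvPolynomial ι R ≃ₐ[R] A := hv.1.aevalEquiv
  let e' : A ≃+* A := a.symm.toRingEquiv.trans (e.trans a.toRingEquiv)
  refine ⟨IsAlgClosure.equivOfEquiv ℂ ℂ e', fun P => ?_⟩
  have h1 : (aeval v P : ℂ) = algebraMap A ℂ (a P) := by
    simp [a]
    rfl
  have h2 : (aeval v (e P) : ℂ) = algebraMap A ℂ (a (e P)) := by
    simp [a]
    rfl
  rw [h1, h2, IsAlgClosure.equivOfEquiv_algebraMap]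
  congr 1
  simp [e']

open MvPolynomial in
/-- The automorphism `X i₀ ↦ X i₀ + 1` of a polynomial ring. -/
noncomputable def shiftEquiv (R : Type*) [CommRing R] {ι : Type*} [DecidableEq ι] (i₀ : ι) :
    MvPolynomial ι R ≃ₐ[R] MvPolynomial ι R :=
  AlgEquiv.ofAlgHom
    (aeval fun i => if i = i₀ then X i + 1 else X i)
    (aeval fun i => if i = i₀ then X i - 1 else X i)
    (by
      ext i
      by_cases h : i = i₀ <;> simp [h])
    (by
      ext i
      by_cases h : i = i₀ <;> simp [h])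

theorem exists_ringEquiv_apply_ne_of_transcendental (x : ℂ) (hx : Transcendental ℚ x) :
    ∃ τ : ℂ ≃+* ℂ, τ x ≠ x := by
  classical
  have h1 : AlgebraicIndepOn ℚ id ({x} : Set ℂ) :=
    (algebraicIndependent_singleton_iff (⟨x, rfl⟩ : ({x} : Set ℂ))).mpr (by simpa using hx)
  obtain ⟨t, hxt, ht⟩ := exists_isTranscendenceBasis_superset h1
  have hxt' : x ∈ t := hxt (Set.mem_singleton x)
  obtain ⟨τ, hτ⟩ := exists_ringEquiv_of_mvPolynomial_equiv (R := ℚ) (Subtype.val : t → ℂ) ht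
    (shiftEquiv ℚ (⟨x, hxt'⟩ : t)).toRingEquiv
  refine ⟨τ, ?_⟩
  have := hτ (MvPolynomial.X ⟨x, hxt'⟩)
  simp [shiftEquiv] at this
  rw [this]
  simp

open Polynomial in
theorem exists_ringEquiv_apply_ne_of_isAlgebraic (x : ℂ) (hx : IsAlgebraic ℚ x)
    (hxQ : x ∉ Set.range (algebraMap ℚ ℂ)) :
    ∃ τ : ℂ ≃+* ℂ, τ x ≠ x := by
  classical
  have hxF : x ∈ algebraicClosure ℚ ℂ := by
    rw [mem_algebraicClosure_iff]; exact hx
  have : IsAlgClosure ℚ (algebraicClosure ℚ ℂ) := algebraicClosure.isAlgClosure ℚ ℂ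
  have : IsAlgClosed (algebraicClosure ℚ ℂ) := IsAlgClosure.isAlgClosed ℚ
  have : Normal ℚ (algebraicClosure ℚ ℂ) := IsAlgClosure.normal ℚ _
  let x' : algebraicClosure ℚ ℂ := ⟨x, hxF⟩
  have hx'bot : x' ∉ (⊥ : Subalgebra ℚ (algebraicClosure ℚ ℂ)) := by
    rintro ⟨r, hr⟩
    apply hxQ
    refine ⟨r, ?_⟩
    have := congrArg (algebraMap (algebraicClosure ℚ ℂ) ℂ) hr
    simpa [x'] using this
  have hsepx : IsSeparable ℚ x' := Algebra.IsSeparable.isSeparable ℚ x'
  obtain ⟨y, hne, hconj⟩ := (notMem_iff_exists_ne_and_isConjRoot hsepx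
    (IsAlgClosed.splits _)).mp hx'bot
  obtain ⟨σ, hσ⟩ := hconj.exists_algEquiv
  obtain ⟨ι, v, hv⟩ := exists_isTranscendenceBasis' (algebraicClosure ℚ ℂ) ℂ
  obtain ⟨τ, hτ⟩ := exists_ringEquiv_of_mvPolynomial_equiv (R := algebraicClosure ℚ ℂ) v hv
    (MvPolynomial.mapEquiv ι σ.symm.toRingEquiv)
  refine ⟨τ, ?_⟩
  have h1 := hτ (MvPolynomial.C x')
  simp only [MvPolynomial.mapEquiv_apply, MvPolynomial.map_C, MvPolynomial.aeval_C] at h1
  have h2 : (σ.symm x' : algebraicClosure ℚ ℂ) = y := by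
    rw [← hσ]; simp
  intro hcon
  apply hne
  apply Subtype.ext
  have h3 : τ x = ((σ.symm x' : algebraicClosure ℚ ℂ) : ℂ) := h1
  rw [hcon, h2] at h3
  exact h3

/-- L1 (automorphism version): every irrational complex number is moved by some ring
automorphism of `ℂ`. -/
theorem exists_ringEquiv_apply_ne (x : ℂ) (hx : x ∉ Set.range (algebraMap ℚ ℂ)) :
    ∃ τ : ℂ ≃+* ℂ, τ x ≠ x := by
  by_cases h : IsAlgebraic ℚ x
  · exact exists_ringEquiv_apply_ne_of_isAlgebraic x h hx
  · exact exists_ringEquiv_apply_ne_of_transcendental x h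

/-- L1: every irrational complex number is moved by some ring endomorphism of `ℂ`. -/
theorem exists_ringHom_apply_ne (x : ℂ) (hx : x ∉ Set.range (algebraMap ℚ ℂ)) :
    ∃ τ : ℂ →+* ℂ, τ x ≠ x := by
  obtain ⟨τ, hτ⟩ := exists_ringEquiv_apply_ne x hx
  exact ⟨τ.toRingHom, hτ⟩

open Module in
/-- Linear algebra: in a finite-dimensional space `V`, a family of functionals with trivial common
kernel contains a basis of the dual, and there is a basis of `V` dual to it. -/
theorem exists_dual_pair {K : Type*} [Field K] {V : Type*} [AddCommGroup V] [Module K V]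
    [FiniteDimensional K V] {κ : Type*} (φ : κ → Dual K V)
    (hφ : ∀ v : V, (∀ n, φ n v = 0) → v = 0) :
    ∃ (ι : Type) (_ : Fintype ι) (_ : DecidableEq ι) (n : ι → κ) (c : Basis ι K V),
      (∀ i j, φ (n i) (c j) = if i = j then 1 else 0) ∧
      (∀ v : V, (∀ i, φ (n i) v = 0) → v = 0) := by
  classical
  have hspan : ⊤ ≤ Submodule.span K (Set.range φ) := by
    rw [top_le_iff, ← Subspace.dualCoannihilator_dualAnnihilator_eq
      (W := Submodule.span K (Set.range φ))]
    have : (Submodule.span K (Set.range φ)).dualCoannihilator = ⊥ := by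
      rw [eq_bot_iff]
      intro v hv
      rw [Submodule.mem_dualCoannihilator] at hv
      rw [Submodule.mem_bot]
      exact hφ v fun n => hv _ (Submodule.subset_span ⟨n, rfl⟩)
    rw [this]
    exact Submodule.dualAnnihilator_bot
  let b := Basis.ofSpan hspan
  have hb : ∀ i, ∃ n, φ n = b i := fun i => Basis.ofSpan_subset hspan ⟨i, rfl⟩
  choose n hn using hb
  have : Finite ((linearIndepOn_empty K id).extend (Set.empty_subset (Set.range φ))) :=
    Module.Finite.finite_basis b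
  let ι₀ := ((linearIndepOn_empty K id).extend (Set.empty_subset (Set.range φ)))
  let _ : Fintype ι₀ := Fintype.ofFinite _
  let e : ι₀ ≃ Fin (Fintype.card ι₀) := Fintype.equivFin ι₀
  let b' : Basis (Fin (Fintype.card ι₀)) K (Dual K V) := b.reindex e
  let c : Basis (Fin (Fintype.card ι₀)) K V := b'.dualBasis.map (evalEquiv K V).symm
  refine ⟨Fin (Fintype.card ι₀), inferInstance, inferInstance, fun i => n (e.symm i), c, ?_, ?_⟩
  · intro i j
    have h1 : φ (n (e.symm i)) = b' i := by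
      rw [hn]; simp [b']
    rw [h1]
    simp only [c, Basis.map_apply]
    rw [apply_evalEquiv_symm_apply, Basis.dualBasis_apply_self]
  · intro v hv
    rw [← forall_dual_apply_eq_zero_iff K v]
    intro ψ
    have : ψ ∈ Submodule.span K (Set.range b') := by
      rw [b'.span_eq]; trivial
    induction this using Submodule.span_induction with
    | mem x hx =>
      obtain ⟨i, rfl⟩ := hx
      have h1 : φ (n (e.symm i)) = b' i := by
        rw [hn]; simp [b']
      rw [← h1]; exact hv i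
    | zero => simp
    | add x y _ _ hx hy => simp [hx, hy]
    | smul a x _ hx => simp [hx]

/-- L3 (automorphism version): a finite-dimensional space of complex power series which is
stable under applying any ring automorphism of `ℂ` to the coefficients is spanned by its elements
with rational coefficients. -/
theorem le_span_inter_QSer_of_map_ringEquiv_mem (V : Submodule ℂ (PowerSeries ℂ))
    [FiniteDimensional ℂ V]
    (hV : ∀ (τ : ℂ ≃+* ℂ), ∀ v ∈ V, PowerSeries.map (τ : ℂ →+* ℂ) v ∈ V) :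
    V ≤ Submodule.span ℂ ((V : Set (PowerSeries ℂ)) ∩ QSer) := by
  classical
  obtain ⟨ι, _, _, n, c, hc1, hc2⟩ := exists_dual_pair (K := ℂ) (V := V)
    (fun m : ℕ => (PowerSeries.coeff m : PowerSeries ℂ →ₗ[ℂ] ℂ).comp V.subtype)
    (by
      intro v hv
      apply Subtype.ext
      ext m
      simpa using hv m)
  simp only [LinearMap.coe_comp, Function.comp_apply, Submodule.subtype_apply] at hc1 hc2
  -- every basis vector has rational coefficients
  have hcQ : ∀ j, ((c j : V) : PowerSeries ℂ) ∈ QSer := by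
    intro j
    have key : ∀ m, PowerSeries.coeff m ((c j : V) : PowerSeries ℂ) ∈
        Set.range (algebraMap ℚ ℂ) := by
      intro m
      by_contra hm
      obtain ⟨τ, hτ⟩ := exists_ringEquiv_apply_ne _ hm
      apply hτ
      let w : V := ⟨PowerSeries.map (τ : ℂ →+* ℂ) (c j), hV τ _ (c j).2⟩
      have hw : w - c j = 0 := by
        apply hc2
        intro i
        simp only [w, Submodule.coe_sub, map_sub, PowerSeries.coeff_map, hc1]
        split_ifs <;> simp
      have hw' : w = c j := sub_eq_zero.mp hw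
      have := congrArg (fun u : V => PowerSeries.coeff m (u : PowerSeries ℂ)) hw'
      simpa [w] using this
    choose r hr using key
    refine ⟨PowerSeries.mk r, ?_⟩
    ext m
    simp [hr]
  intro v hv
  have hv' : (⟨v, hv⟩ : V) = ∑ j, c.repr ⟨v, hv⟩ j • c j := (c.sum_repr ⟨v, hv⟩).symm
  have hv'' : v = ∑ j, c.repr ⟨v, hv⟩ j • ((c j : V) : PowerSeries ℂ) := by
    have h0 : ((⟨v, hv⟩ : V) : PowerSeries ℂ) =
        ((∑ j, c.repr ⟨v, hv⟩ j • c j : V) : PowerSeries ℂ) := congrArg Subtype.val hv'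
    rw [Submodule.coe_sum] at h0
    simpa using h0
  rw [hv'']
  refine Submodule.sum_mem _ fun j _ => Submodule.smul_mem _ _ (Submodule.subset_span ⟨(c j).2, hcQ j⟩)

/-- L3: a finite-dimensional space of complex power series which is stable under applying any ring
endomorphism of `ℂ` to the coefficients is spanned by its elements with rational coefficients. -/
theorem le_span_inter_QSer_of_map_mem (V : Submodule ℂ (PowerSeries ℂ)) [FiniteDimensional ℂ V]
    (hV : ∀ (τ : ℂ →+* ℂ), ∀ v ∈ V, PowerSeries.map τ v ∈ V) :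
    V ≤ Submodule.span ℂ ((V : Set (PowerSeries ℂ)) ∩ QSer) :=
  le_span_inter_QSer_of_map_ringEquiv_mem V fun τ v hv => hV (τ : ℂ →+* ℂ) v hv

end Fermat.Agent.S23
end MergeWrap_S23_Descent

section MergeWrap_S23_LevelOneAux -- from S23/LevelOneAux.lean

/-!
# S23, step A (extras): consequences of `levelOne_span_ZSer`
Owner: helper40.

* `qExpansion_modularForm_mem_span_ZSer`: the q-expansion of a level one form lies in `span ℂ ZSer`.
* `span_ZSer_mul`, `span_ZSer_pow`: `span ℂ ZSer` is closed under products.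
* `exists_modularForm_map`, `exists_cuspForm_map`, `isCF_map`: for a ring endomorphism `τ` of `ℂ`,
  the coefficientwise `τ`-conjugate of the q-expansion of a level one (cusp) form is again the
  q-expansion of a level one (cusp) form of the same weight.
-/

set_option autoImplicit false

namespace Fermat.Agent.S23

open UpperHalfPlane ModularForm ModularFormClass MatrixGroups

lemma map_eq_self_of_mem_ZSer (τ : ℂ →+* ℂ) {p : PowerSeries ℂ} (hp : p ∈ ZSer) :
    PowerSeries.map τ p = p := by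
  obtain ⟨P, rfl⟩ := hp
  ext n
  simp

lemma one_mem_ZSer : (1 : PowerSeries ℂ) ∈ ZSer := ⟨1, by simp⟩

lemma mul_mem_ZSer {p q : PowerSeries ℂ} (hp : p ∈ ZSer) (hq : q ∈ ZSer) : p * q ∈ ZSer := by
  obtain ⟨P, rfl⟩ := hp
  obtain ⟨Q, rfl⟩ := hq
  exact ⟨P * Q, by simp⟩

/-- `span ℂ ZSer` is closed under multiplication. -/
lemma span_ZSer_mul {a b : PowerSeries ℂ} (ha : a ∈ Submodule.span ℂ ZSer)
    (hb : b ∈ Submodule.span ℂ ZSer) : a * b ∈ Submodule.span ℂ ZSer := by
  induction ha using Submodule.span_induction with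
  | mem x hx =>
    induction hb using Submodule.span_induction with
    | mem y hy => exact Submodule.subset_span (mul_mem_ZSer hx hy)
    | zero => simp
    | add y z _ _ hy hz => rw [mul_add]; exact Submodule.add_mem _ hy hz
    | smul c y _ hy => rw [mul_smul_comm]; exact Submodule.smul_mem _ _ hy
  | zero => simp
  | add x y _ _ hx hy => rw [add_mul]; exact Submodule.add_mem _ hx hy
  | smul c x _ hx => rw [smul_mul_assoc]; exact Submodule.smul_mem _ _ hx

lemma span_ZSer_pow {a : PowerSeries ℂ} (ha : a ∈ Submodule.span ℂ ZSer) (n : ℕ) :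
    a ^ n ∈ Submodule.span ℂ ZSer := by
  induction n with
  | zero => rw [pow_zero]; exact Submodule.subset_span one_mem_ZSer
  | succ n ih => rw [pow_succ]; exact span_ZSer_mul ih ha

/-- The q-expansion of a level one modular form lies in the `ℂ`-span of the integral series. -/
theorem qExpansion_modularForm_mem_span_ZSer {k : ℤ} (G : ModularForm 𝒮ℒ k) :
    qExpansion 1 G ∈ Submodule.span ℂ ZSer := by
  have hG : G ∈ Submodule.span ℂ {G : ModularForm 𝒮ℒ k | qExpansion 1 G ∈ ZSer} := by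
    rw [levelOne_span_ZSer]; trivial
  induction hG using Submodule.span_induction with
  | mem x hx => exact Submodule.subset_span hx
  | zero =>
    rw [FunLike.coe_zero, qExpansion_zero]; exact Submodule.zero_mem _
  | add x y _ _ hx hy =>
    rw [FunLike.coe_add, ModularForm.qExpansion_add one_pos one_mem_strictPeriods_SL]
    exact Submodule.add_mem _ hx hy
  | smul c x _ hx =>
    rw [FunLike.coe_smul, ModularForm.qExpansion_smul one_pos one_mem_strictPeriods_SL]
    exact Submodule.smul_mem _ _ hx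

/-- Conjugating the q-expansion of a level one modular form by a ring endomorphism of `ℂ` gives
the q-expansion of a level one modular form of the same weight. -/
theorem exists_modularForm_map (τ : ℂ →+* ℂ) {k : ℤ} (G : ModularForm 𝒮ℒ k) :
    ∃ G' : ModularForm 𝒮ℒ k, qExpansion 1 G' = PowerSeries.map τ (qExpansion 1 G) := by
  have hG : G ∈ Submodule.span ℂ {G : ModularForm 𝒮ℒ k | qExpansion 1 G ∈ ZSer} := by
    rw [levelOne_span_ZSer]; trivial
  induction hG using Submodule.span_induction with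
  | mem x hx => exact ⟨x, (map_eq_self_of_mem_ZSer τ hx).symm⟩
  | zero => exact ⟨0, by rw [FunLike.coe_zero, qExpansion_zero, map_zero]⟩
  | add x y _ _ hx hy =>
    obtain ⟨x', hx'⟩ := hx
    obtain ⟨y', hy'⟩ := hy
    refine ⟨x' + y', ?_⟩
    rw [FunLike.coe_add, ModularForm.qExpansion_add one_pos one_mem_strictPeriods_SL,
      FunLike.coe_add, ModularForm.qExpansion_add one_pos one_mem_strictPeriods_SL, map_add,
      hx', hy']
  | smul c x _ hx =>
    obtain ⟨x', hx'⟩ := hx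
    refine ⟨τ c • x', ?_⟩
    rw [FunLike.coe_smul, ModularForm.qExpansion_smul one_pos one_mem_strictPeriods_SL,
      FunLike.coe_smul, ModularForm.qExpansion_smul one_pos one_mem_strictPeriods_SL, hx']
    ext n
    simp

/-- Conjugating the q-expansion of a level one cusp form by a ring endomorphism of `ℂ` gives
the q-expansion of a level one cusp form of the same weight. -/
theorem exists_cuspForm_map (τ : ℂ →+* ℂ) {k : ℤ} (G : CuspForm 𝒮ℒ k) :
    ∃ G' : CuspForm 𝒮ℒ k, qExpansion 1 G' = PowerSeries.map τ (qExpansion 1 G) := by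
  obtain ⟨G', hG'⟩ := exists_modularForm_map τ (CuspForm.toModularFormₗ G)
  have h0 : (qExpansion 1 G').coeff 0 = 0 := by
    rw [hG', PowerSeries.coeff_map]
    have : (qExpansion 1 (CuspForm.toModularFormₗ G)).coeff 0 = 0 :=
      CuspFormClass.qExpansion_coeff_zero G one_pos one_mem_strictPeriods_SL
    rw [this, map_zero]
  exact ⟨toCuspForm G' h0, hG'⟩

/-- Function-level version of `exists_cuspForm_map`. -/
theorem isCF_map (τ : ℂ →+* ℂ) {k : ℤ} {c : ℍ → ℂ} (hc : IsCF 𝒮ℒ k c) :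
    ∃ c' : ℍ → ℂ, IsCF 𝒮ℒ k c' ∧ qExpansion 1 c' = PowerSeries.map τ (qExpansion 1 c) := by
  obtain ⟨G, rfl⟩ := hc
  obtain ⟨G', hG'⟩ := exists_cuspForm_map τ G
  exact ⟨G', ⟨G', rfl⟩, hG'⟩

/-- Function-level version of `exists_modularForm_map`. -/
theorem isMF_map (τ : ℂ →+* ℂ) {k : ℤ} {c : ℍ → ℂ} (hc : IsMF 𝒮ℒ k c) :
    ∃ c' : ℍ → ℂ, IsMF 𝒮ℒ k c' ∧ qExpansion 1 c' = PowerSeries.map τ (qExpansion 1 c) := by
  obtain ⟨G, rfl⟩ := hc
  obtain ⟨G', hG'⟩ := exists_modularForm_map τ G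
  exact ⟨G', ⟨G', rfl⟩, hG'⟩

end Fermat.Agent.S23
end MergeWrap_S23_LevelOneAux

section MergeWrap_S23_Transport -- from S23/Transport.lean

/-!
# S23: consequences of step A (level one forms and ring endomorphisms of `ℂ`)
Owner: helper40.

All three follow from `levelOne_span_ZSer` by `Submodule.span_induction`
(for the cusp version: `toCuspForm` / `isCuspForm_iff_coeffZero_eq_zero`, a level one modular form
is a cusp form iff its constant coefficient vanishes, and `τ 0 = 0`).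
-/

set_option autoImplicit false

namespace Fermat.Agent.S23

open UpperHalfPlane ModularForm MatrixGroups

/-- `span ℂ ZSer` is closed under multiplication. -/
theorem mul_mem_span_ZSer {a b : PowerSeries ℂ} (ha : a ∈ Submodule.span ℂ ZSer)
    (hb : b ∈ Submodule.span ℂ ZSer) : a * b ∈ Submodule.span ℂ ZSer := by
  exact span_ZSer_mul ha hb

theorem one_mem_span_ZSer : (1 : PowerSeries ℂ) ∈ Submodule.span ℂ ZSer := by
  exact Submodule.subset_span one_mem_ZSer

/-- A ring endomorphism of `ℂ` fixes integral power series. -/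
theorem map_eq_of_mem_ZSer (τ : ℂ →+* ℂ) {a : PowerSeries ℂ} (ha : a ∈ ZSer) :
    PowerSeries.map τ a = a := by
  exact map_eq_self_of_mem_ZSer τ ha

theorem qExpansion_mem_span_ZSer {k : ℤ} {g : ℍ → ℂ} (hg : IsMF 𝒮ℒ k g) :
    qExpansion 1 g ∈ Submodule.span ℂ ZSer := by
  obtain ⟨G, rfl⟩ := hg
  exact qExpansion_modularForm_mem_span_ZSer G

theorem exists_isMF_qExpansion_map (τ : ℂ →+* ℂ) {k : ℤ} {g : ℍ → ℂ} (hg : IsMF 𝒮ℒ k g) :
    ∃ g' : ℍ → ℂ, IsMF 𝒮ℒ k g' ∧ qExpansion 1 g' = PowerSeries.map τ (qExpansion 1 g) := by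
  exact isMF_map τ hg

theorem exists_isCF_qExpansion_map (τ : ℂ →+* ℂ) {k : ℤ} {g : ℍ → ℂ} (hg : IsCF 𝒮ℒ k g) :
    ∃ g' : ℍ → ℂ, IsCF 𝒮ℒ k g' ∧ qExpansion 1 g' = PowerSeries.map τ (qExpansion 1 g) := by
  exact isCF_map τ hg

end Fermat.Agent.S23
end MergeWrap_S23_Transport

section MergeWrap_S48_G1_Converse -- from S48/G1/Converse.lean

/-!
# S48 PORT of S23/Converse.lean (owner of the original: helper54; port: helper15):
from certificates to a cusp form, for `Γ₁(N)`

Proof sketch.  `Φ := A^n + Σ_j c_j A^j D^(n-j)` is a modular form for `Γ₁(N)` with zero q-expansion,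
so `Φ = 0`.  Hence on `{D ≠ 0}` the function `g = A / D` satisfies `g^n + Σ c_j g^j = 0`, so
`‖g‖ ≤ max 1 (Σ ‖c_j‖)` is locally bounded: removable singularities at the (isolated) zeros of `D`
give a holomorphic `f` on `ℍ` with `f * D = A`.  Slash-invariance of `f` follows from that of `A`,
`D`; for `γ ∈ SL(2,ℤ)`, `f ∣[k] γ` satisfies the same monic equation (the `c_j` are level one), so
`‖f ∣[k] γ‖ ^ n ≤ Σ ‖c_j‖ → 0` at `i∞` (when the sum is `≤ 1`): `f` is a cusp form.  Finally
`qExp f * qExp D = qExp A = f₀ * qExp D` and `qExp D ≠ 0`.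
-/

set_option autoImplicit false

namespace Fermat.Agent.S48G1

open UpperHalfPlane ModularForm MatrixGroups Fermat.Agent.S23Converse Fermat.Agent.S23

set_option linter.unusedVariables false in
/-- Step D.  `c j` is the coefficient of `X^j` in the monic polynomial (weight `k * (n - j)`). -/
theorem exists_cuspForm_of_certificates (N : ℕ) [NeZero N] (k w : ℤ)
    (D : ModularForm (G1 N) w) (hD : D ≠ 0) (A : ModularForm (G1 N) (w + k))
    (f₀ : PowerSeries ℂ) (hfD : f₀ * qExpansion 1 D = qExpansion 1 A)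
    (n : ℕ) (hn : 0 < n) (c : ℕ → ℍ → ℂ)
    (hc : ∀ j < n, IsCF 𝒮ℒ (k * ((n : ℤ) - j)) (c j))
    (hmonic : f₀ ^ n + ∑ j ∈ Finset.range n, qExpansion 1 (c j) * f₀ ^ j = 0) :
    ∃ f : CuspForm (G1 N) k, qExpansion 1 f = f₀ := by
  have hG0 : (1 : ℝ) ∈ (G1 N).strictPeriods := one_mem_strictPeriods_G1 N
  have gA : IsGood (⇑A) := isGood_of_modularFormClass hG0 A
  have gD : IsGood (⇑D) := isGood_of_modularFormClass hG0 D
  have gc : ∀ j < n, IsGood (c j) := by
    intro j hj
    obtain ⟨G, hG⟩ := hc j hj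
    rw [← hG]
    exact isGood_of_modularFormClass Fermat.Agent.S23.one_mem_strictPeriods_SL G
  -- `D` does not vanish identically
  have hDne : ∃ τ, D τ ≠ 0 := by
    by_contra hcon
    push Not at hcon
    exact hD (ModularForm.ext hcon)
  have hDq : qExpansion 1 (⇑D) ≠ 0 := by
    intro h0
    have := gD.eq_zero_of_qExpansion_eq_zero h0
    exact hD (ModularForm.ext fun τ => congrFun this τ)
  -- the relation `Φ = 0`
  set Φ : ℍ → ℂ := (⇑A) ^ n + ∑ j ∈ Finset.range n, c j * (⇑A) ^ j * (⇑D) ^ (n - j) with hΦ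
  have gterm : ∀ j ∈ Finset.range n, IsGood (c j * (⇑A) ^ j * (⇑D) ^ (n - j)) := fun j hj =>
    ((gc j (Finset.mem_range.mp hj)).mul (gA.pow j)).mul (gD.pow (n - j))
  have gΦ : IsGood Φ := (gA.pow n).add (IsGood.sum _ gterm)
  have hΦq : qExpansion 1 Φ = 0 := by
    rw [hΦ, (gA.pow n).qExpansion_add (IsGood.sum _ gterm), gA.qExpansion_pow,
      IsGood.qExpansion_sum _ gterm]
    have hsum : ∑ j ∈ Finset.range n, qExpansion 1 (c j * (⇑A) ^ j * (⇑D) ^ (n - j)) =
        ∑ j ∈ Finset.range n, (qExpansion 1 (c j) * f₀ ^ j) * qExpansion 1 (⇑D) ^ n := by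
      refine Finset.sum_congr rfl fun j hj => ?_
      have hjn : j ≤ n := (Finset.mem_range.mp hj).le
      rw [((gc j (Finset.mem_range.mp hj)).mul (gA.pow j)).qExpansion_mul (gD.pow (n - j)),
        (gc j (Finset.mem_range.mp hj)).qExpansion_mul (gA.pow j), gA.qExpansion_pow,
        gD.qExpansion_pow, ← hfD, mul_pow]
      have : qExpansion 1 (⇑D) ^ n = qExpansion 1 (⇑D) ^ j * qExpansion 1 (⇑D) ^ (n - j) := by
        rw [← pow_add]; congr 1; omega
      rw [this]
      ring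
    rw [hsum, ← Finset.sum_mul, ← hfD, mul_pow, ← add_mul, hmonic, zero_mul]
  have hΦ0 : Φ = 0 := gΦ.eq_zero_of_qExpansion_eq_zero hΦq
  have hrel : ∀ τ : ℍ, A τ ^ n +
      ∑ i : Fin n, c (i : ℕ) τ * A τ ^ (i : ℕ) * D τ ^ (n - (i : ℕ)) = 0 := by
    intro τ
    have := congrFun hΦ0 τ
    rw [hΦ] at this
    simp only [Pi.add_apply, Pi.pow_apply, Finset.sum_apply, Pi.mul_apply, Pi.zero_apply] at this
    rw [Fin.sum_univ_eq_sum_range (fun j => c j τ * A τ ^ j * D τ ^ (n - j)) n]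
    exact this
  -- apply the function-level theorem
  obtain ⟨f, hf⟩ := exists_cuspForm_of_mul_eq (Γ := G1 N) D hDne A (fun i : Fin n => c (i : ℕ))
    (fun i => by
      obtain ⟨G, hG⟩ := hc i i.2
      rw [← hG]
      exact (ModularFormClass.holo G).continuous)
    (fun i γ => by
      obtain ⟨G, hG⟩ := hc i i.2
      rw [← hG]
      exact SlashInvariantFormClass.slash_action_eq G _ ⟨γ, rfl⟩)
    (fun i => by
      obtain ⟨G, hG⟩ := hc i i.2
      rw [← hG]
      have : Fact (IsCusp OnePoint.infty 𝒮ℒ) :=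
        ⟨Subgroup.isCusp_of_mem_strictPeriods one_pos Fermat.Agent.S23.one_mem_strictPeriods_SL⟩
      exact CuspFormClass.zero_at_infty G)
    hrel
  refine ⟨f, ?_⟩
  have gf : IsGood (⇑f) := isGood_of_modularFormClass hG0 f
  have hmul : qExpansion 1 (⇑f) * qExpansion 1 (⇑D) = f₀ * qExpansion 1 (⇑D) := by
    rw [← gf.qExpansion_mul gD, hfD]
    congr 1
    funext τ
    exact hf τ
  exact mul_right_cancel₀ hDq hmul

end Fermat.Agent.S48G1
end MergeWrap_S48_G1_Converse

section MergeWrap_S48_G1_Esymm -- from S48/G1/Esymm.lean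

/-!
# S48 PORT of S23/Esymm.lean (owner of the original: helper33; port: helper15):
elementary symmetric functions of the `SL(2,ℤ)`-translates, for `Γ₁(N)`

For a form `f` on `Γ₁(N)`, `esymmFun N f j = e_j (f ∣[k] h⁻¹ : h ∈ SL(2,ℤ)/Γ₁(N))`.
Proof sketch: exactly as Mathlib's `SlashInvariantForm.norm` / `ModularForm.norm`
(`Mathlib/NumberTheory/ModularForms/NormTrace.lean`), which is the case `j = index`:
`SlashAction.sum_slash`, `ModularForm.prod_slash` (weight `k * #s`, `#s = j` on `powersetCard j`),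
`quotientFunc_smul`, and reindexing `powersetCard j univ` by the permutation `q ↦ h⁻¹ • q`.
Boundedness / vanishing at cusps as in `ModularForm.norm` / `CuspForm.trace`.
-/

set_option autoImplicit false

namespace Fermat.Agent.S48G1

open UpperHalfPlane ModularForm MatrixGroups Fermat.Agent.S23

/-- The `j`-th elementary symmetric function of the `SL(2,ℤ)`-translates of `f`. -/
noncomputable def esymmFun (N : ℕ) [NeZero N] {F : Type*} [FunLike F ℍ ℂ] {k : ℤ}
    [SlashInvariantFormClass F (G1 N) k] (f : F) (j : ℕ) : ℍ → ℂ :=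
  letI := Fintype.ofFinite (𝒮ℒ ⧸ (G1 N).subgroupOf 𝒮ℒ)
  ∑ s ∈ Finset.powersetCard j (Finset.univ : Finset (𝒮ℒ ⧸ (G1 N).subgroupOf 𝒮ℒ)),
    ∏ q ∈ s, SlashInvariantForm.quotientFunc f q

section aux

open SlashInvariantForm Finset

/-- The coset space `SL(2,ℤ) / Γ₁(N)`. -/
abbrev EsymmQ (N : ℕ) : Type := 𝒮ℒ ⧸ (G1 N).subgroupOf 𝒮ℒ

variable (N : ℕ) [NeZero N] {F : Type*} [FunLike F ℍ ℂ] {k : ℤ}

omit [NeZero N] in
/-- Slashing a product of `j` translates by an element of `SL(2,ℤ)` permutes the translates. -/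
lemma esymm_prod_slash [SlashInvariantFormClass F (G1 N) k] (f : F) {j : ℕ}
    {h : GL (Fin 2) ℝ} (hh : h ∈ 𝒮ℒ) [DecidableEq (EsymmQ N)] (s : Finset (EsymmQ N))
    (hs : #s = j) :
    (∏ q ∈ s, quotientFunc f q) ∣[k * j] h =
      ∏ q ∈ s.map (MulAction.toPerm (⟨h, hh⟩ : 𝒮ℒ)⁻¹).toEmbedding, quotientFunc f q := by
  rw [← hs, ModularForm.prod_slash, Subgroup.HasDetPlusMinusOne.abs_det hh, one_zpow, one_smul,
    Finset.prod_map]
  refine Finset.prod_congr rfl fun q _ => ?_
  rw [quotientFunc_smul f hh]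
  rfl

lemma esymmFun_slash [SlashInvariantFormClass F (G1 N) k] (f : F) (j : ℕ)
    {h : GL (Fin 2) ℝ} (hh : h ∈ 𝒮ℒ) :
    esymmFun N f j ∣[k * j] h = esymmFun N f j := by
  classical
  letI := Fintype.ofFinite (EsymmQ N)
  unfold esymmFun
  rw [SlashAction.sum_slash]
  have key : ∀ s ∈ powersetCard j (univ : Finset (EsymmQ N)),
      (∏ q ∈ s, quotientFunc f q) ∣[k * j] h =
        ∏ q ∈ s.map (MulAction.toPerm (⟨h, hh⟩ : 𝒮ℒ)⁻¹).toEmbedding, quotientFunc f q :=
    fun s hs => esymm_prod_slash N f hh s (mem_powersetCard.mp hs).2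
  rw [Finset.sum_congr rfl key]
  have hmap : (powersetCard j (univ : Finset (EsymmQ N))).map
      (mapEmbedding (MulAction.toPerm (⟨h, hh⟩ : 𝒮ℒ)⁻¹).toEmbedding).toEmbedding =
      powersetCard j (univ : Finset (EsymmQ N)) := by
    rw [← powersetCard_map, Finset.map_univ_equiv]
  conv_rhs => rw [← hmap]
  rw [Finset.sum_map]
  rfl

end aux

section cusps

open SlashInvariantForm Finset

variable (N : ℕ) [NeZero N] {k : ℤ}

/-- The translates of a modular form are bounded at `i∞` after slashing by any `γ` sending `∞`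
to a cusp of `SL(2,ℤ)`. -/
lemma esymm_isBoundedAtImInfty_quotientFunc_slash (f : ModularForm (G1 N) k)
    {γ : GL (Fin 2) ℝ} (hγ : IsCusp (γ • OnePoint.infty) 𝒮ℒ) (q : EsymmQ N) :
    IsBoundedAtImInfty (quotientFunc f q ∣[k] γ) := by
  induction q using Quotient.inductionOn with
  | h r =>
    obtain ⟨r, hr⟩ := r
    refine (ModularForm.translate f r⁻¹).bdd_at_cusps' ?_ γ rfl
    simpa using hγ.of_isFiniteRelIndex_conj hr

/-- The translates of a cusp form vanish at `i∞` after slashing by any `γ` sending `∞`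
to a cusp of `SL(2,ℤ)`. -/
lemma esymm_isZeroAtImInfty_quotientFunc_slash (f : CuspForm (G1 N) k)
    {γ : GL (Fin 2) ℝ} (hγ : IsCusp (γ • OnePoint.infty) 𝒮ℒ) (q : EsymmQ N) :
    IsZeroAtImInfty (quotientFunc f q ∣[k] γ) := by
  induction q using Quotient.inductionOn with
  | h r =>
    obtain ⟨r, hr⟩ := r
    refine (CuspForm.translate f r⁻¹).zero_at_cusps' ?_ γ rfl
    simpa using hγ.of_isFiniteRelIndex_conj hr

end cusps

section slashes

open SlashInvariantForm Finset

variable (N : ℕ) [NeZero N] {F : Type*} [FunLike F ℍ ℂ] {k : ℤ}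

/-- Slashing `esymmFun` by an arbitrary element of `GL(2,ℝ)`, termwise. -/
lemma esymmFun_slash_eq [SlashInvariantFormClass F (G1 N) k] (f : F) (j : ℕ)
    (γ : GL (Fin 2) ℝ) :
    letI := Fintype.ofFinite (EsymmQ N)
    esymmFun N f j ∣[k * j] γ =
      ∑ s ∈ powersetCard j (univ : Finset (EsymmQ N)),
        |γ.det.val| ^ ((j : ℤ) - 1) • ∏ q ∈ s, quotientFunc f q ∣[k] γ := by
  classical
  letI := Fintype.ofFinite (EsymmQ N)
  unfold esymmFun
  rw [SlashAction.sum_slash]
  refine Finset.sum_congr rfl fun s hs => ?_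
  have hs' : #s = j := (mem_powersetCard.mp hs).2
  rw [← hs', ModularForm.prod_slash]

end slashes

theorem isMF_esymmFun (N : ℕ) [NeZero N] {k : ℤ} (f : ModularForm (G1 N) k) (j : ℕ) :
    IsMF 𝒮ℒ (k * j) (esymmFun N f j) := by
  classical
  letI := Fintype.ofFinite (EsymmQ N)
  refine ⟨{ toFun := esymmFun N f j
            slash_action_eq' := fun h hh => esymmFun_slash N f j hh
            holo' := ?_
            bdd_at_cusps' := ?_ }, rfl⟩
  · unfold esymmFun
    exact .sum fun s _ => .prod (Quotient.forall.mpr fun ⟨r, hr⟩ _ ↦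
      (ModularForm.translate f r⁻¹).holo')
  · intro c hc γ hγ
    subst hγ
    rw [esymmFun_slash_eq, IsBoundedAtImInfty, Filter.BoundedAtFilter, Finset.sum_fn]
    refine .fun_sum fun s _ => ?_
    apply Asymptotics.IsBigO.const_smul_left
    rw [show (1 : ℍ → ℝ) = (fun x ↦ ∏ _i ∈ s, (1 : ℝ)) by ext; simp, Finset.prod_fn]
    exact .finsetProd fun q _ => esymm_isBoundedAtImInfty_quotientFunc_slash N f hc q

theorem isCF_esymmFun (N : ℕ) [NeZero N] {k : ℤ} (f : CuspForm (G1 N) k) (j : ℕ) (hj : 0 < j) :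
    IsCF 𝒮ℒ (k * j) (esymmFun N f j) := by
  classical
  letI := Fintype.ofFinite (EsymmQ N)
  refine ⟨{ toFun := esymmFun N f j
            slash_action_eq' := fun h hh => esymmFun_slash N f j hh
            holo' := ?_
            zero_at_cusps' := ?_ }, rfl⟩
  · unfold esymmFun
    exact .sum fun s _ => .prod (Quotient.forall.mpr fun ⟨r, hr⟩ _ ↦
      (CuspForm.translate f r⁻¹).holo')
  · intro c hc γ hγ
    subst hγ
    rw [esymmFun_slash_eq, IsZeroAtImInfty, Filter.ZeroAtFilter, Finset.sum_fn]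
    rw [show (0 : ℂ) = ∑ _s ∈ Finset.powersetCard j (Finset.univ : Finset (EsymmQ N)), (0 : ℂ)
      by simp]
    refine tendsto_finsetSum _ fun s hs => ?_
    have hs' : s.card = j := (Finset.mem_powersetCard.mp hs).2
    have h0 : Filter.Tendsto (fun x => ∏ q ∈ s, (SlashInvariantForm.quotientFunc f q ∣[k] γ) x)
        atImInfty (nhds (∏ _q ∈ s, (0 : ℂ))) :=
      tendsto_finsetProd _ fun q _ => esymm_isZeroAtImInfty_quotientFunc_slash N f hc q
    rw [Finset.prod_const, hs', zero_pow hj.ne'] at h0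
    have h1 := h0.const_smul (|γ.det.val| ^ ((j : ℤ) - 1))
    rw [smul_zero] at h1
    refine h1.congr fun x => ?_
    simp [Finset.prod_apply]

end Fermat.Agent.S48G1
end MergeWrap_S48_G1_Esymm

section MergeWrap_S48_G1_Lagrange -- from S48/G1/Lagrange.lean

/-!
# S48 PORT of S23/Lagrange.lean (port: helper15): certificates for a cusp form on `Γ₁(N)`;
the primitive element `θ` has an arbitrary weight `κ`
-/

set_option autoImplicit false
set_option linter.unusedSectionVars false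

namespace Fermat.Agent.S48G1

open UpperHalfPlane ModularForm MatrixGroups Filter Topology SlashInvariantForm
  Fermat.Agent.S23

variable {N : ℕ} [NeZero N] {k k₁ k₂ κ : ℤ}

/-- The coset space `SL(2,ℤ) / Γ₁(N)`. -/
abbrev Q (N : ℕ) : Type := 𝒮ℒ ⧸ (G1 N).subgroupOf 𝒮ℒ

noncomputable instance instFintypeQ : Fintype (Q N) := Fintype.ofFinite _

theorem quotientFunc_one {F : Type*} [FunLike F ℍ ℂ] [SlashInvariantFormClass F (G1 N) k]
    (f : F) : quotientFunc f (QuotientGroup.mk 1 : Q N) = f := by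
  change (f : ℍ → ℂ) ∣[k] ((1 : 𝒮ℒ) : GL (Fin 2) ℝ)⁻¹ = f
  simp [SlashAction.slash_one]

theorem quotientFunc_congr {F G : Type*} [FunLike F ℍ ℂ] [FunLike G ℍ ℂ]
    [SlashInvariantFormClass F (G1 N) k] [SlashInvariantFormClass G (G1 N) k]
    (f : F) (g : G) (h : (f : ℍ → ℂ) = g) (q : Q N) : quotientFunc f q = quotientFunc g q := by
  induction q using Quotient.inductionOn with
  | h r =>
    change (f : ℍ → ℂ) ∣[k] (r : GL (Fin 2) ℝ)⁻¹ = (g : ℍ → ℂ) ∣[k] (r : GL (Fin 2) ℝ)⁻¹
    rw [h]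

theorem quotientFunc_mul {F G H : Type*} [FunLike F ℍ ℂ] [FunLike G ℍ ℂ] [FunLike H ℍ ℂ]
    [SlashInvariantFormClass F (G1 N) k₁] [SlashInvariantFormClass G (G1 N) k₂]
    [SlashInvariantFormClass H (G1 N) (k₁ + k₂)]
    (f : F) (g : G) (h : H) (hh : (h : ℍ → ℂ) = f * g) (q : Q N) :
    quotientFunc h q = quotientFunc f q * quotientFunc g q := by
  induction q using Quotient.inductionOn with
  | h r =>
    change (h : ℍ → ℂ) ∣[k₁ + k₂] (r : GL (Fin 2) ℝ)⁻¹ =
      (f : ℍ → ℂ) ∣[k₁] (r : GL (Fin 2) ℝ)⁻¹ * (g : ℍ → ℂ) ∣[k₂] (r : GL (Fin 2) ℝ)⁻¹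
    obtain ⟨γ, hγ⟩ := r.2
    have : ((r : GL (Fin 2) ℝ))⁻¹ = Matrix.SpecialLinearGroup.mapGL ℝ γ⁻¹ := by
      rw [map_inv, hγ]
    rw [hh, this]
    have := ModularForm.mul_slash_SL2 k₁ k₂ γ⁻¹ (f : ℍ → ℂ) (g : ℍ → ℂ)
    simp only [ModularForm.SL_slash] at this
    exact this

theorem esymmFun_apply {F : Type*} [FunLike F ℍ ℂ] [SlashInvariantFormClass F (G1 N) k]
    (f : F) (j : ℕ) (τ : ℍ) :
    esymmFun N f j τ = ∑ s ∈ Finset.powersetCard j (Finset.univ : Finset (Q N)),
      ∏ q ∈ s, quotientFunc f q τ := by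
  simp only [esymmFun, Finset.sum_apply, Finset.prod_apply]

/-- The value at `τ` of the `i`-th coefficient of `∏ (X - f_q)`. -/
theorem rootPoly_coeff_quotientFunc {F : Type*} [FunLike F ℍ ℂ]
    [SlashInvariantFormClass F (G1 N) k] (f : F) (i : ℕ) (hi : i ≤ Fintype.card (Q N)) (τ : ℍ) :
    (rootPoly (fun q : Q N => quotientFunc f q τ)).coeff i =
      ((-1 : ℂ) ^ (Fintype.card (Q N) - i) • esymmFun N f (Fintype.card (Q N) - i)) τ := by
  classical
  rw [rootPoly_coeff _ i hi, Pi.smul_apply, esymmFun_apply, smul_eq_mul]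

theorem card_Q_pos : 0 < Fintype.card (Q N) := Fintype.card_pos

/-- Certificate (ii): a cusp form on `Γ₁(N)` is a root of a monic polynomial whose lower
coefficients are level one cusp forms. -/
theorem exists_monic (N : ℕ) [NeZero N] (k : ℤ) (f : CuspForm (G1 N) k) :
    ∃ (n : ℕ) (c : ℕ → ℍ → ℂ), 0 < n ∧ (∀ j < n, IsCF 𝒮ℒ (k * ((n : ℤ) - j)) (c j)) ∧
      (f : ℍ → ℂ) ^ n + ∑ j ∈ Finset.range n, c j * (f : ℍ → ℂ) ^ j = 0 := by
  classical
  refine ⟨Fintype.card (Q N),
    fun j => (-1 : ℂ) ^ (Fintype.card (Q N) - j) • esymmFun N f (Fintype.card (Q N) - j),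
    card_Q_pos, ?_, ?_⟩
  · intro j hj
    have h := isCF_esymmFun N f (Fintype.card (Q N) - j) (by omega)
    refine (h.cast ?_).smul _
    rw [Nat.cast_sub hj.le]
  · ext τ
    set t : Q N → ℂ := fun q => quotientFunc f q τ with ht
    have h0 : (rootPoly t).eval (f τ) = 0 := by
      have := rootPoly_eval_root t (QuotientGroup.mk 1 : Q N)
      rwa [show t (QuotientGroup.mk 1 : Q N) = f τ from
        congrFun (quotientFunc_one (N := N) f) τ] at this
    rw [Polynomial.eval_eq_sum_range, rootPoly_natDegree, Finset.sum_range_succ] at h0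
    have hlead : (rootPoly t).coeff (Fintype.card (Q N)) = 1 := by
      rw [rootPoly_coeff t _ le_rfl]
      simp
    rw [hlead, one_mul] at h0
    simp only [Pi.add_apply, Pi.pow_apply, Finset.sum_apply, Pi.mul_apply, Pi.zero_apply]
    rw [add_comm, ← h0]
    congr 1
    refine Finset.sum_congr rfl fun j hj => ?_
    rw [rootPoly_coeff_quotientFunc f j (Finset.mem_range.mp hj).le τ]

/-! ### Power sums of translates -/

theorem slash_mul_pow (γ : SL(2, ℤ)) (f θ : ℍ → ℂ) (k κ : ℤ) (r : ℕ) :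
    (f * θ ^ r) ∣[k + κ * r] γ = (f ∣[k] γ) * (θ ∣[κ] γ) ^ r := by
  induction r with
  | zero => simp
  | succ r ih =>
    have h1 : f * θ ^ (r + 1) = (f * θ ^ r) * θ := by rw [pow_succ, mul_assoc]
    have h2 : k + κ * ((r + 1 : ℕ) : ℤ) = (k + κ * r) + κ := by push_cast; ring
    rw [h1, h2, ModularForm.mul_slash_SL2, ih, pow_succ, mul_assoc]

theorem quotientFunc_mul_pow {F G H : Type*} [FunLike F ℍ ℂ] [FunLike G ℍ ℂ] [FunLike H ℍ ℂ]
    (r : ℕ) [SlashInvariantFormClass F (G1 N) k] [SlashInvariantFormClass G (G1 N) κ]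
    [SlashInvariantFormClass H (G1 N) (k + κ * r)]
    (f : F) (θ : G) (h : H) (hh : (h : ℍ → ℂ) = f * (θ : ℍ → ℂ) ^ r) (q : Q N) :
    quotientFunc h q = quotientFunc f q * quotientFunc θ q ^ r := by
  induction q using Quotient.inductionOn with
  | h g =>
    change (h : ℍ → ℂ) ∣[k + κ * r] (g : GL (Fin 2) ℝ)⁻¹ =
      (f : ℍ → ℂ) ∣[k] (g : GL (Fin 2) ℝ)⁻¹ * ((θ : ℍ → ℂ) ∣[κ] (g : GL (Fin 2) ℝ)⁻¹) ^ r
    obtain ⟨γ, hγ⟩ := g.2
    have : ((g : GL (Fin 2) ℝ))⁻¹ = Matrix.SpecialLinearGroup.mapGL ℝ γ⁻¹ := by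
      rw [map_inv, hγ]
    rw [hh, this]
    have := slash_mul_pow γ⁻¹ (f : ℍ → ℂ) (θ : ℍ → ℂ) k κ r
    simp only [ModularForm.SL_slash] at this
    exact this

/-- The power sums `∑_q f_q θ_q^r` are level one modular forms. -/
theorem isMF_powerSum (θ : ModularForm (G1 N) κ) (f : CuspForm (G1 N) k) (r : ℕ) :
    IsMF 𝒮ℒ (k + κ * r) (∑ q : Q N, quotientFunc f q * quotientFunc θ q ^ r) := by
  obtain ⟨G, hG⟩ : IsMF (G1 N) (k + κ * r) ((f : ℍ → ℂ) * (θ : ℍ → ℂ) ^ r) :=
    (IsCF.of f).isMF.mul ((IsMF.of θ).pow r)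
  refine ⟨ModularForm.trace 𝒮ℒ G, ?_⟩
  rw [ModularForm.coe_trace]
  refine Finset.sum_congr rfl fun q _ => ?_
  exact quotientFunc_mul_pow r f θ G hG q

/-! ### The Lagrange–Euler certificate -/

/-- The `i`-th coefficient of `∏_q (X - θ_q)` as a function on `ℍ`. -/
noncomputable def psiFun (θ : ModularForm (G1 N) κ) (i : ℕ) : ℍ → ℂ :=
  (-1 : ℂ) ^ (Fintype.card (Q N) - i) • esymmFun N θ (Fintype.card (Q N) - i)

theorem psiFun_apply (θ : ModularForm (G1 N) κ) (i : ℕ) (hi : i ≤ Fintype.card (Q N)) (τ : ℍ) :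
    psiFun θ i τ = (rootPoly (fun q : Q N => quotientFunc θ q τ)).coeff i :=
  (rootPoly_coeff_quotientFunc θ i hi τ).symm

theorem isMF_psiFun (θ : ModularForm (G1 N) κ) (i : ℕ) (hi : i ≤ Fintype.card (Q N)) :
    IsMF 𝒮ℒ (κ * ((Fintype.card (Q N) : ℤ) - i)) (psiFun θ i) := by
  have h := isMF_esymmFun N θ (Fintype.card (Q N) - i)
  refine (h.cast ?_).smul _
  rw [Nat.cast_sub hi]

/-- Certificate (i): `f * D = A` where `D ≠ 0` and `A` are polynomials in `θ` whose
coefficients are level one modular forms. -/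
theorem exists_certificate (N : ℕ) [NeZero N] (k κ : ℤ) (θ : ModularForm (G1 N) κ)
    (hθ1 : Tendsto θ atImInfty (𝓝 1))
    (hθ2 : ∀ q : Q N, q ≠ QuotientGroup.mk 1 →
      ∃ ℓ : ℂ, ℓ ≠ 1 ∧ Tendsto (quotientFunc θ q) atImInfty (𝓝 ℓ))
    (f : CuspForm (G1 N) k) :
    ∃ (w : ℤ) (n : ℕ) (d a : ℕ → ℍ → ℂ),
      (∀ m < n, IsMF 𝒮ℒ (w - κ * m) (d m)) ∧ (∀ m < n, IsMF 𝒮ℒ (w + k - κ * m) (a m)) ∧
      (∑ m ∈ Finset.range n, d m * (θ : ℍ → ℂ) ^ m ≠ 0) ∧
      (f : ℍ → ℂ) * ∑ m ∈ Finset.range n, d m * (θ : ℍ → ℂ) ^ m =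
        ∑ m ∈ Finset.range n, a m * (θ : ℍ → ℂ) ^ m := by
  classical
  set μ := Fintype.card (Q N) with hμ
  set i₀ : Q N := QuotientGroup.mk 1 with hi₀
  -- the data
  set d : ℕ → ℍ → ℂ := fun m => ((m + 1 : ℕ) : ℂ) • psiFun θ (m + 1) with hd
  set p : ℕ → ℍ → ℂ := fun r => ∑ q : Q N, quotientFunc f q * quotientFunc θ q ^ r with hp
  set a : ℕ → ℍ → ℂ := fun m => ∑ i ∈ Finset.Ioc m μ, psiFun θ i * p (i - 1 - m) with ha
  -- pointwise values
  have hDval : ∀ τ : ℍ, (∑ m ∈ Finset.range μ, d m * (θ : ℍ → ℂ) ^ m) τ =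
      ∏ q ∈ Finset.univ.erase i₀, (θ τ - quotientFunc θ q τ) := by
    intro τ
    have h1 := rootPoly_derivative_eval (fun q : Q N => quotientFunc θ q τ) i₀
    have h2 := rootPoly_derivative_eval_eq_sum (fun q : Q N => quotientFunc θ q τ)
      (quotientFunc θ i₀ τ)
    have h3 : quotientFunc θ i₀ τ = θ τ := congrFun (quotientFunc_one (N := N) θ) τ
    rw [h3] at h1 h2
    rw [← h1, h2]
    simp only [Finset.sum_apply, Pi.mul_apply, Pi.pow_apply]
    refine Finset.sum_congr rfl fun m hm => ?_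
    rw [hd]
    simp only [Pi.smul_apply, smul_eq_mul]
    rw [psiFun_apply θ (m + 1) (by have := Finset.mem_range.mp hm; omega) τ]
  refine ⟨κ * ((μ : ℤ) - 1), μ, d, a, ?_, ?_, ?_, ?_⟩
  · intro m hm
    have h := isMF_psiFun θ (m + 1) (by omega)
    exact (h.cast (by push_cast; ring)).smul _
  · intro m hm
    refine IsMF.sum _ _ fun i hi => ?_
    have hi' := Finset.mem_Ioc.mp hi
    have h1 := isMF_psiFun θ i hi'.2
    have h2 := isMF_powerSum θ f (i - 1 - m)
    refine (h1.mul h2).cast ?_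
    have : ((i - 1 - m : ℕ) : ℤ) = (i : ℤ) - 1 - m := by omega
    rw [this]
    ring
  · -- `D ≠ 0` by looking at the value at `i∞`
    intro hD
    choose! ℓ hℓ1 hℓ2 using hθ2
    have hlim : Tendsto (fun τ : ℍ => ∏ q ∈ Finset.univ.erase i₀, (θ τ - quotientFunc θ q τ))
        atImInfty (𝓝 (∏ q ∈ Finset.univ.erase i₀, (1 - ℓ q))) := by
      refine tendsto_finsetProd _ fun q hq => ?_
      exact hθ1.sub (hℓ2 q (Finset.ne_of_mem_erase hq))
    have hzero : (fun τ : ℍ => ∏ q ∈ Finset.univ.erase i₀, (θ τ - quotientFunc θ q τ)) =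
        fun _ => 0 := by
      funext τ
      rw [← hDval τ, hD]
      rfl
    rw [hzero] at hlim
    have := tendsto_nhds_unique hlim tendsto_const_nhds
    rw [Finset.prod_eq_zero_iff] at this
    obtain ⟨q, hq, h0⟩ := this
    exact hℓ1 q (Finset.ne_of_mem_erase hq) (sub_eq_zero.mp h0).symm
  · ext τ
    have hL := lagrange_euler (fun q : Q N => quotientFunc θ q τ)
      (fun q : Q N => quotientFunc f q τ) i₀
    have h3 : quotientFunc θ i₀ τ = θ τ := congrFun (quotientFunc_one (N := N) θ) τ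
    have h4 : quotientFunc f i₀ τ = f τ := congrFun (quotientFunc_one (N := N) f) τ
    have h5 := rootPoly_derivative_eval (fun q : Q N => quotientFunc θ q τ) i₀
    simp only [h3, h4] at hL h5
    rw [Pi.mul_apply, hDval τ, ← h5, ← hL]
    simp only [Finset.sum_apply, Pi.mul_apply, Pi.pow_apply]
    refine Finset.sum_congr rfl fun m hm => ?_
    congr 1
    rw [ha]
    simp only [Finset.sum_apply, Pi.mul_apply]
    refine Finset.sum_congr rfl fun i hi => ?_
    rw [psiFun_apply θ i (Finset.mem_Ioc.mp hi).2 τ, hp]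
    simp only [Finset.sum_apply, Pi.mul_apply, Pi.pow_apply]

end Fermat.Agent.S48G1
end MergeWrap_S48_G1_Lagrange

section MergeWrap_S48_G1_StabilityMap -- from S48/G1/StabilityMap.lean

/-!
# S48 PORT of S23/StabilityMap.lean (owner of the original: helper23; port: helper15):
stability of the q-expansions of cusp forms on `Γ₁(N)` under ring endomorphisms of `ℂ`,
given a primitive element (`ThetaAt N κ`)
-/

set_option autoImplicit false

namespace Fermat.Agent.S48G1

open UpperHalfPlane ModularForm MatrixGroups Fermat.Agent.S23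

/-- A ring endomorphism of `ℂ` fixes the power series with bounded denominators. -/
theorem map_eq_of_smul_mem_ZSer (τ : ℂ →+* ℂ) {a : PowerSeries ℂ} {M : ℕ} (hM : 0 < M)
    (ha : (M : ℂ) • a ∈ ZSer) : PowerSeries.map τ a = a := by
  have h1 := map_eq_of_mem_ZSer τ ha
  have hM0 : (M : ℂ) ≠ 0 := by exact_mod_cast hM.ne'
  ext n
  have h2 := congrArg (PowerSeries.coeff n) h1
  simp only [PowerSeries.coeff_map, PowerSeries.coeff_smul, smul_eq_mul, map_mul, map_natCast]
    at h2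
  rw [PowerSeries.coeff_map]
  exact mul_left_cancel₀ hM0 h2

/-- Power series with bounded denominators are in `span ℂ ZSer`. -/
theorem mem_span_ZSer_of_smul_mem_ZSer {a : PowerSeries ℂ} {M : ℕ} (hM : 0 < M)
    (ha : (M : ℂ) • a ∈ ZSer) : a ∈ Submodule.span ℂ ZSer := by
  have hM0 : (M : ℂ) ≠ 0 := by exact_mod_cast hM.ne'
  have h : a = (M : ℂ)⁻¹ • ((M : ℂ) • a) := by
    rw [smul_smul, inv_mul_cancel₀ hM0, one_smul]
  rw [h]
  exact Submodule.smul_mem _ _ (Submodule.subset_span ha)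

/-- q-expansion of a polynomial in `θ` with `QA` coefficients. -/
theorem qExpansion_sum_mul_pow (n : ℕ) (d : ℕ → ℍ → ℂ) (θ : ℍ → ℂ)
    (hd : ∀ m < n, QA (d m)) (hθ : QA θ) :
    qExpansion 1 (∑ m ∈ Finset.range n, d m * θ ^ m) =
      ∑ m ∈ Finset.range n, qExpansion 1 (d m) * qExpansion 1 θ ^ m := by
  rw [QA.qExpansion_sum _ _ fun m hm => (hd m (Finset.mem_range.mp hm)).mul (hθ.pow m)]
  refine Finset.sum_congr rfl fun m hm => ?_
  rw [(hd m (Finset.mem_range.mp hm)).qExpansion_mul (hθ.pow m), hθ.qExpansion_pow]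

theorem isMF_sum_mul_pow {N : ℕ} {κ : ℤ} (n : ℕ) (w : ℤ) (d : ℕ → ℍ → ℂ)
    (θ : ModularForm (G1 N) κ) (hd : ∀ m < n, IsMF 𝒮ℒ (w - κ * m) (d m)) :
    IsMF (G1 N) w (∑ m ∈ Finset.range n, d m * (θ : ℍ → ℂ) ^ m) := by
  refine IsMF.sum _ _ fun m hm => ?_
  have h1 := (hd m (Finset.mem_range.mp hm)).mono (G1_le_SL N)
  exact (h1.mul ((IsMF.of θ).pow m)).cast (by ring)

/-- Stability of q-expansions of cusp forms under ring endomorphisms of `ℂ`. -/
theorem exists_cuspForm_qExpansion_map (N : ℕ) [NeZero N] (κ : ℤ) (hθ : ThetaAt N κ) (k : ℤ)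
    (τ : ℂ →+* ℂ) (f : CuspForm (G1 N) k) :
    ∃ f' : CuspForm (G1 N) k, qExpansion 1 f' = PowerSeries.map τ (qExpansion 1 f) := by
  obtain ⟨θ, ⟨M, hM, hθZ⟩, hθ1, hθ2⟩ := hθ
  obtain ⟨w, n, d, a, hd, ha, hD0, hfD⟩ := exists_certificate N k κ θ hθ1 hθ2 f
  obtain ⟨μ, c, hμ, hc, hmonic⟩ := exists_monic N k f
  have h1 := one_mem_strictPeriods_G1 N
  have hθQA : QA (θ : ℍ → ℂ) := (IsMF.of θ).qa h1
  have hfQA : QA (f : ℍ → ℂ) := (IsCF.of f).isMF.qa h1
  have hdQA : ∀ m < n, QA (d m) := fun m hm => ((hd m hm).mono (G1_le_SL N)).qa h1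
  have haQA : ∀ m < n, QA (a m) := fun m hm => ((ha m hm).mono (G1_le_SL N)).qa h1
  have hcQA : ∀ j < μ, QA (c j) := fun j hj => (((hc j hj).isMF).mono (G1_le_SL N)).qa h1
  -- transport of the level one data
  choose! d' hd' hd'q using fun m (hm : m < n) => exists_isMF_qExpansion_map τ (hd m hm)
  choose! a' ha' ha'q using fun m (hm : m < n) => exists_isMF_qExpansion_map τ (ha m hm)
  choose! c' hc' hc'q using fun j (hj : j < μ) => exists_isCF_qExpansion_map τ (hc j hj)
  have hd'QA : ∀ m < n, QA (d' m) := fun m hm => ((hd' m hm).mono (G1_le_SL N)).qa h1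
  have ha'QA : ∀ m < n, QA (a' m) := fun m hm => ((ha' m hm).mono (G1_le_SL N)).qa h1
  have hc'QA : ∀ j < μ, QA (c' j) := fun j hj => (((hc' j hj).isMF).mono (G1_le_SL N)).qa h1
  have hθτ : PowerSeries.map τ (qExpansion 1 (θ : ℍ → ℂ)) = qExpansion 1 (θ : ℍ → ℂ) :=
    map_eq_of_smul_mem_ZSer τ hM hθZ
  -- the new modular forms
  obtain ⟨Dm, hDm⟩ := isMF_sum_mul_pow n w d' θ hd'
  obtain ⟨Am, hAm⟩ := isMF_sum_mul_pow n (w + k) a' θ ha'
  obtain ⟨D₀, hD₀⟩ := isMF_sum_mul_pow n w d θ hd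
  have hqD : qExpansion 1 (Dm : ℍ → ℂ) =
      PowerSeries.map τ (qExpansion 1 (∑ m ∈ Finset.range n, d m * (θ : ℍ → ℂ) ^ m)) := by
    rw [hDm, qExpansion_sum_mul_pow n d' θ hd'QA hθQA, qExpansion_sum_mul_pow n d θ hdQA hθQA,
      map_sum]
    refine Finset.sum_congr rfl fun m hm => ?_
    rw [map_mul, map_pow, hθτ, hd'q m (Finset.mem_range.mp hm)]
  have hqA : qExpansion 1 (Am : ℍ → ℂ) =
      PowerSeries.map τ (qExpansion 1 (∑ m ∈ Finset.range n, a m * (θ : ℍ → ℂ) ^ m)) := by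
    rw [hAm, qExpansion_sum_mul_pow n a' θ ha'QA hθQA, qExpansion_sum_mul_pow n a θ haQA hθQA,
      map_sum]
    refine Finset.sum_congr rfl fun m hm => ?_
    rw [map_mul, map_pow, hθτ, ha'q m (Finset.mem_range.mp hm)]
  have hDQA : QA (∑ m ∈ Finset.range n, d m * (θ : ℍ → ℂ) ^ m) :=
    QA.sum _ _ fun m hm => (hdQA m (Finset.mem_range.mp hm)).mul (hθQA.pow m)
  have hτinj : Function.Injective (PowerSeries.map τ) := by
    intro x y hxy
    ext i
    have := congrArg (PowerSeries.coeff i) hxy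
    simp only [PowerSeries.coeff_map] at this
    exact τ.injective this
  -- `Dm ≠ 0`
  have hDm0 : Dm ≠ 0 := by
    intro h
    have h2 : qExpansion 1 (Dm : ℍ → ℂ) = 0 := by
      rw [h]; exact (ModularForm.qExpansion_eq_zero_iff one_pos h1 (0 : ModularForm (G1 N) w)).mpr rfl
    rw [hqD] at h2
    have h3 : qExpansion 1 (∑ m ∈ Finset.range n, d m * (θ : ℍ → ℂ) ^ m) = 0 :=
      hτinj (by rw [h2, map_zero])
    rw [← hD₀] at h3
    have h4 := (ModularForm.qExpansion_eq_zero_iff one_pos h1 D₀).mp h3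
    apply hD0
    rw [← hD₀, h4]
    rfl
  -- the relation `f₀ * qExp Dm = qExp Am`
  have hrel : PowerSeries.map τ (qExpansion 1 (f : ℍ → ℂ)) * qExpansion 1 (Dm : ℍ → ℂ) =
      qExpansion 1 (Am : ℍ → ℂ) := by
    rw [hqD, hqA, ← map_mul, ← hfQA.qExpansion_mul hDQA, hfD]
  -- the monic equation
  have hmon : PowerSeries.map τ (qExpansion 1 (f : ℍ → ℂ)) ^ μ +
      ∑ j ∈ Finset.range μ, qExpansion 1 (c' j) *
        PowerSeries.map τ (qExpansion 1 (f : ℍ → ℂ)) ^ j = 0 := by
    have h5 := congrArg (qExpansion 1) hmonic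
    rw [(hfQA.pow μ).qExpansion_add
      (QA.sum _ _ fun j hj => (hcQA j (Finset.mem_range.mp hj)).mul (hfQA.pow j)),
      hfQA.qExpansion_pow,
      QA.qExpansion_sum _ _ fun j hj => (hcQA j (Finset.mem_range.mp hj)).mul (hfQA.pow j),
      UpperHalfPlane.qExpansion_zero] at h5
    have h6 := congrArg (PowerSeries.map τ) h5
    rw [map_add, map_pow, map_sum, map_zero] at h6
    rw [← h6]
    congr 1
    refine Finset.sum_congr rfl fun j hj => ?_
    rw [(hcQA j (Finset.mem_range.mp hj)).qExpansion_mul (hfQA.pow j), hfQA.qExpansion_pow,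
      map_mul, map_pow, hc'q j (Finset.mem_range.mp hj)]
  exact exists_cuspForm_of_certificates N k w Dm hDm0 Am _ hrel μ hμ c' hc' hmon

end Fermat.Agent.S48G1
end MergeWrap_S48_G1_StabilityMap

section MergeWrap_S48_G1_BoundedDenomMF -- from S48/G1/BoundedDenomMF.lean

/-!
# S48 PORT of S23/BoundedDenomMF.lean (owner of the original: helper40; port: helper15):
bounded denominators for cusp forms on `Γ₁(N)` with rational q-expansion, given `ThetaAt N κ`

Proof sketch.  Take `θ` from `exists_theta`, the certificate `f * D = A`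
(`exists_certificate`, `D = ∑ d m * θ^m`, `A = ∑ a m * θ^m`, `d m`, `a m` level one) and the monic
equation `f^n + ∑ c j * f^j = 0` (`exists_monic`).  Pass to q-expansions with the `QA` calculus of
`MF.lean` (`IsMF.qa`, `QA.qExpansion_mul`, ...; all functions involved are `IsMF` for `G1 N`, use
`IsMF.mono (G1_le_SL N)` and `one_mem_strictPeriods_G1`).  `qExp D ≠ 0` since `D ≠ 0`
(`ModularForm.qExpansion_eq_zero_iff`).  `qExp (d m)`, `qExp (a m)`, `qExp (c j)` are in
`span ℂ ZSer` (`qExpansion_mem_span_ZSer`), `qExp θ ∈ ZSer`, and `span ℂ ZSer` is closed under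
multiplication.  Then apply `exists_nat_smul_mem_ZSer`.
-/

set_option autoImplicit false

namespace Fermat.Agent.S48G1

open UpperHalfPlane ModularForm MatrixGroups Fermat.Agent.S23

/-- Powers of elements of `span ℂ ZSer` stay in `span ℂ ZSer`. -/
theorem pow_mem_span_ZSer {a : PowerSeries ℂ} (ha : a ∈ Submodule.span ℂ ZSer) (n : ℕ) :
    a ^ n ∈ Submodule.span ℂ ZSer := by
  induction n with
  | zero => simpa using one_mem_span_ZSer
  | succ n ih => rw [pow_succ]; exact mul_mem_span_ZSer ih ha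

/-- A polynomial in an element of `span ℂ ZSer` with coefficients in `span ℂ ZSer` is in
`span ℂ ZSer`. -/
theorem sum_mul_pow_mem_span_ZSer (n : ℕ) (d : ℕ → PowerSeries ℂ) (t : PowerSeries ℂ)
    (hd : ∀ m < n, d m ∈ Submodule.span ℂ ZSer) (ht : t ∈ Submodule.span ℂ ZSer) :
    ∑ m ∈ Finset.range n, d m * t ^ m ∈ Submodule.span ℂ ZSer :=
  Submodule.sum_mem _ fun m hm =>
    mul_mem_span_ZSer (hd m (Finset.mem_range.mp hm)) (pow_mem_span_ZSer ht m)

/-- Bounded denominators. -/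
theorem exists_nat_smul_qExpansion_mem_ZSer (N : ℕ) [NeZero N] (κ : ℤ) (hθ : ThetaAt N κ)
    (k : ℤ) (f : CuspForm (G1 N) k) (hf : qExpansion 1 f ∈ QSer) :
    ∃ M : ℕ, 0 < M ∧ (M : ℂ) • qExpansion 1 f ∈ ZSer := by
  obtain ⟨θ, ⟨M₀, hM₀, hθZ⟩, hθ1, hθ2⟩ := hθ
  obtain ⟨w, n, d, a, hd, ha, hD0, hfD⟩ := exists_certificate N k κ θ hθ1 hθ2 f
  obtain ⟨μ, c, hμ, hc, hmonic⟩ := exists_monic N k f
  have h1 := one_mem_strictPeriods_G1 N
  have hθQA : QA (θ : ℍ → ℂ) := (IsMF.of θ).qa h1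
  have hfQA : QA (f : ℍ → ℂ) := (IsCF.of f).isMF.qa h1
  have hdQA : ∀ m < n, QA (d m) := fun m hm => ((hd m hm).mono (G1_le_SL N)).qa h1
  have haQA : ∀ m < n, QA (a m) := fun m hm => ((ha m hm).mono (G1_le_SL N)).qa h1
  have hcQA : ∀ j < μ, QA (c j) := fun j hj => (((hc j hj).isMF).mono (G1_le_SL N)).qa h1
  have hθS : qExpansion 1 (θ : ℍ → ℂ) ∈ Submodule.span ℂ ZSer :=
    mem_span_ZSer_of_smul_mem_ZSer hM₀ hθZ
  have hDQA : QA (∑ m ∈ Finset.range n, d m * (θ : ℍ → ℂ) ^ m) :=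
    QA.sum _ _ fun m hm => (hdQA m (Finset.mem_range.mp hm)).mul (hθQA.pow m)
  obtain ⟨D₀, hD₀⟩ := isMF_sum_mul_pow n w d θ hd
  -- `qExp D ≠ 0`
  have hqD0 : qExpansion 1 (∑ m ∈ Finset.range n, d m * (θ : ℍ → ℂ) ^ m) ≠ 0 := by
    intro h3
    rw [← hD₀] at h3
    have h4 := (ModularForm.qExpansion_eq_zero_iff one_pos h1 D₀).mp h3
    apply hD0
    rw [← hD₀, h4]
    rfl
  have hqD : qExpansion 1 (∑ m ∈ Finset.range n, d m * (θ : ℍ → ℂ) ^ m) ∈
      Submodule.span ℂ ZSer := by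
    rw [qExpansion_sum_mul_pow n d θ hdQA hθQA]
    exact sum_mul_pow_mem_span_ZSer n _ _
      (fun m hm => qExpansion_mem_span_ZSer (hd m hm)) hθS
  have hqA : qExpansion 1 (∑ m ∈ Finset.range n, a m * (θ : ℍ → ℂ) ^ m) ∈
      Submodule.span ℂ ZSer := by
    rw [qExpansion_sum_mul_pow n a θ haQA hθQA]
    exact sum_mul_pow_mem_span_ZSer n _ _
      (fun m hm => qExpansion_mem_span_ZSer (ha m hm)) hθS
  have hrel : qExpansion 1 (f : ℍ → ℂ) *
      qExpansion 1 (∑ m ∈ Finset.range n, d m * (θ : ℍ → ℂ) ^ m) =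
      qExpansion 1 (∑ m ∈ Finset.range n, a m * (θ : ℍ → ℂ) ^ m) := by
    rw [← hfQA.qExpansion_mul hDQA, hfD]
  have hmon : qExpansion 1 (f : ℍ → ℂ) ^ μ +
      ∑ j ∈ Finset.range μ, qExpansion 1 (c j) * qExpansion 1 (f : ℍ → ℂ) ^ j = 0 := by
    have h5 := congrArg (qExpansion 1) hmonic
    rw [(hfQA.pow μ).qExpansion_add
      (QA.sum _ _ fun j hj => (hcQA j (Finset.mem_range.mp hj)).mul (hfQA.pow j)),
      hfQA.qExpansion_pow,
      QA.qExpansion_sum _ _ fun j hj => (hcQA j (Finset.mem_range.mp hj)).mul (hfQA.pow j),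
      UpperHalfPlane.qExpansion_zero] at h5
    rw [← h5]
    congr 1
    refine Finset.sum_congr rfl fun j hj => ?_
    rw [(hcQA j (Finset.mem_range.mp hj)).qExpansion_mul (hfQA.pow j), hfQA.qExpansion_pow]
  exact exists_nat_smul_mem_ZSer (qExpansion 1 (f : ℍ → ℂ)) hf _ _ hqD0 hqD hqA hrel μ
    (fun j => qExpansion 1 (c j)) (fun j hj => qExpansion_mem_span_ZSer (hc j hj).isMF) hmon

end Fermat.Agent.S48G1
end MergeWrap_S48_G1_BoundedDenomMF

section MergeWrap_S48_G1_FiniteDim -- from S48/G1/FiniteDim.lean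

/-!
# S48 PORT of S23/FiniteDim.lean (owner of the original: helper40; port: helper15):
the q-expansion map on cusp forms of level `Γ₁(N)` is linear and injective, and the space is
finite-dimensional (Sturm bound from the Prelude: `ModularForm.sturm_bound_of_isArithmetic`).
-/

set_option autoImplicit false

namespace Fermat.Agent.S48G1

open UpperHalfPlane ModularForm MatrixGroups Fermat.Agent.S23

/-- The q-expansion as a `ℂ`-linear map. -/
noncomputable def qExpLin (N : ℕ) (k : ℤ) : CuspForm (G1 N) k →ₗ[ℂ] PowerSeries ℂ where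
  toFun f := qExpansion 1 f
  map_add' f g := by
    rw [FunLike.coe_add]
    exact ModularForm.qExpansion_add one_pos (one_mem_strictPeriods_G1 N) f g
  map_smul' c f := by
    rw [FunLike.coe_smul]
    exact ModularForm.qExpansion_smul one_pos (one_mem_strictPeriods_G1 N) c f

@[simp] theorem qExpLin_apply (N : ℕ) (k : ℤ) (f : CuspForm (G1 N) k) :
    qExpLin N k f = qExpansion 1 f := rfl

theorem qExpLin_injective (N : ℕ) [NeZero N] (k : ℤ) : Function.Injective (qExpLin N k) := by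
  rw [← LinearMap.ker_eq_bot, LinearMap.ker_eq_bot']
  intro f hf
  rw [qExpLin_apply] at hf
  have h := (ModularForm.qExpansion_eq_zero_iff one_pos (one_mem_strictPeriods_G1 N)
    (ModularFormClass.modularForm f)).mp hf
  ext z
  have := congrArg (fun F : ModularForm (G1 N) k => F z) h
  simpa using this

/-- The truncated q-expansion map. -/
noncomputable def qExpTrunc (N : ℕ) (k : ℤ) (B : ℕ) :
    CuspForm (G1 N) k →ₗ[ℂ] (Fin (B + 1) → ℂ) where
  toFun f n := (qExpansion 1 f).coeff n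
  map_add' f g := by
    funext n
    change (qExpansion 1 (f + g)).coeff n = (qExpansion 1 f).coeff n + (qExpansion 1 g).coeff n
    rw [ModularForm.qExpansion_add one_pos (one_mem_strictPeriods_G1 N) f g, map_add]
  map_smul' c f := by
    funext n
    change (qExpansion 1 (c • f)).coeff n = c • (qExpansion 1 f).coeff n
    rw [ModularForm.qExpansion_smul one_pos (one_mem_strictPeriods_G1 N) c f,
      PowerSeries.coeff_smul]

theorem qExpTrunc_injective (N : ℕ) [NeZero N] (k : ℤ) :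
    Function.Injective
      (qExpTrunc N k ((k * (G1 N).relIndex 𝒮ℒ).toNat / 12)) := by
  rw [← LinearMap.ker_eq_bot, LinearMap.ker_eq_bot']
  intro f hf
  have h : (ModularFormClass.modularForm f : ModularForm (G1 N) k) = 0 := by
    refine ModularForm.sturm_bound_of_isArithmetic (one_mem_strictPeriods_G1 N) ?_
    refine lt_of_lt_of_le (by exact_mod_cast Nat.lt_succ_self _)
      (PowerSeries.nat_le_order _ _ fun n hn ↦ ?_)
    have := congrFun hf ⟨n, hn⟩
    simpa [qExpTrunc] using this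
  ext z
  have := congrArg (fun F : ModularForm (G1 N) k => F z) h
  simpa using this

instance finiteDimensional_cuspForm (N : ℕ) [NeZero N] (k : ℤ) :
    FiniteDimensional ℂ (CuspForm (G1 N) k) :=
  Module.Finite.of_injective _ (qExpTrunc_injective N k)

end Fermat.Agent.S48G1
end MergeWrap_S48_G1_FiniteDim

section MergeWrap_S48_G1_Main -- from S48/G1/Main.lean

/-!
# S48 PORT of S23/Main.lean (owner of the original: helper33; port: helper15):
integral structure of `S_k(Γ₁(N))` given a primitive element, and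
`intStruct_of_theta : ThetaStatement → Fermat.Agent.S48.IntStructStatement`.

Proof sketch (as in S23).  `V := LinearMap.range (qExpLin N k)` is finite-dimensional and stable
under `PowerSeries.map τ` (`exists_cuspForm_qExpansion_map`), so by `le_span_inter_QSer_of_map_mem`
`V ≤ span ℂ (V ∩ QSer)`.  If `v = qExpLin g ∈ QSer`, then by `exists_nat_smul_qExpansion_mem_ZSer`
`M • g` has integral q-expansion for some `M > 0`.  For `N ≤ 2`: `-1 ∈ Γ₁(N)`, so the forms of odd
weight vanish.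
-/

set_option autoImplicit false

namespace Fermat.Agent.S48G1

open UpperHalfPlane ModularForm MatrixGroups Fermat.Agent.S23

/-- The cusp forms on `Γ₁(N)` with integral `q`-coefficients. -/
def intSet (N : ℕ) (k : ℤ) : Set (CuspForm (G1 N) k) :=
  {g | ∀ n : ℕ, ∃ m : ℤ, ModularFormClass.qCoeff g n = (m : ℂ)}

/-- A cusp form whose q-expansion is integral lies in `intSet`. -/
theorem mem_intSet_of_qExpansion_mem_ZSer (N : ℕ) (k : ℤ) (g : CuspForm (G1 N) k)
    (hg : qExpansion 1 g ∈ ZSer) : g ∈ intSet N k := by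
  intro n
  obtain ⟨P, hP⟩ := hg
  refine ⟨PowerSeries.coeff n P, ?_⟩
  change (qExpansion 1 g).coeff n = _
  rw [← hP, PowerSeries.coeff_map]
  rfl

/-- **Integral structure** on `S_k(Γ₁(N))`, any weight, given a primitive element. -/
theorem mem_span_intSet (N : ℕ) [NeZero N] (κ : ℤ) (hθ : ThetaAt N κ) (k : ℤ)
    (f : CuspForm (G1 N) k) : f ∈ Submodule.span ℂ (intSet N k) := by
  have hV : ∀ τ : ℂ →+* ℂ, ∀ v ∈ LinearMap.range (qExpLin N k),
      PowerSeries.map τ v ∈ LinearMap.range (qExpLin N k) := by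
    rintro τ _ ⟨g, rfl⟩
    obtain ⟨g', hg'⟩ := exists_cuspForm_qExpansion_map N κ hθ k τ g
    exact ⟨g', hg'⟩
  have h1 := le_span_inter_QSer_of_map_mem (LinearMap.range (qExpLin N k)) hV
  have h2 : Submodule.span ℂ (((LinearMap.range (qExpLin N k) :
        Submodule ℂ (PowerSeries ℂ)) : Set (PowerSeries ℂ)) ∩ QSer) ≤
      Submodule.map (qExpLin N k) (Submodule.span ℂ (intSet N k)) := by
    rw [Submodule.span_le]
    rintro _ ⟨⟨g, rfl⟩, hq⟩
    obtain ⟨M, hM, hMZ⟩ := exists_nat_smul_qExpansion_mem_ZSer N κ hθ k g hq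
    refine ⟨g, ?_, rfl⟩
    have hMg : (M : ℂ) • g ∈ intSet N k := by
      refine mem_intSet_of_qExpansion_mem_ZSer N k _ ?_
      have : qExpansion 1 (((M : ℂ) • g : CuspForm (G1 N) k) : ℍ → ℂ) =
          (M : ℂ) • qExpansion 1 g := (qExpLin N k).map_smul (M : ℂ) g
      rw [this]
      exact hMZ
    have hM0 : (M : ℂ) ≠ 0 := by exact_mod_cast hM.ne'
    have hg : g = (M : ℂ)⁻¹ • ((M : ℂ) • g) := by
      rw [smul_smul, inv_mul_cancel₀ hM0, one_smul]
    rw [hg]
    exact Submodule.smul_mem _ _ (Submodule.subset_span hMg)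
  obtain ⟨f', hf', hff'⟩ := h2 (h1 ⟨f, rfl⟩)
  have := qExpLin_injective N k hff'
  rw [← this]
  exact hf'

/-- For `N ∣ 2` the matrix `-1` is in `Γ₁(N)`. -/
theorem neg_one_mem_G1 (N : ℕ) (hN : N ∣ 2) : (-1 : GL (Fin 2) ℝ) ∈ G1 N := by
  refine ⟨-1, ?_, ?_⟩
  · rw [SetLike.mem_coe, CongruenceSubgroup.Gamma1_mem]
    have h2 : (2 : ZMod N) = 0 := by
      have : ((2 : ℕ) : ZMod N) = 0 := (ZMod.natCast_eq_zero_iff 2 N).mpr hN
      exact_mod_cast this
    have h1 : (-1 : ZMod N) = 1 := by linear_combination -h2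
    simp [h1]
  · ext i j
    simp

/-- For `N ∣ 2` there are no nonzero cusp forms of odd weight on `Γ₁(N)`. -/
theorem cuspForm_eq_zero_of_dvd_two (N : ℕ) (hN : N ∣ 2) {k : ℤ} (hk : Odd k)
    (f : CuspForm (G1 N) k) : f = 0 := by
  have h := ModularForm.eq_zero_of_neg_one_mem (neg_one_mem_G1 N hN) hk
    (ModularFormClass.modularForm f)
  ext z
  have := congrArg (fun F : ModularForm (G1 N) k => F z) h
  simpa using this

/-- **(PORT)** the integral structure of `S₁(Γ₁(N))` from the primitive elements. -/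
theorem intStruct_of_theta (hθ : ThetaStatement) : Fermat.Agent.S48.IntStructStatement := by
  intro N _ f
  by_cases hN : 3 ≤ N
  · obtain ⟨κ, hκ⟩ := hθ N hN
    exact mem_span_intSet N κ hκ 1 f
  · have hN0 : N ≠ 0 := NeZero.ne N
    have hdvd : N ∣ 2 := by
      have : N = 1 ∨ N = 2 := by omega
      rcases this with rfl | rfl
      · exact one_dvd 2
      · exact dvd_refl 2
    have hf : f = 0 := cuspForm_eq_zero_of_dvd_two N hdvd (by decide) f
    rw [hf]
    exact Submodule.zero_mem _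

end Fermat.Agent.S48G1
end MergeWrap_S48_G1_Main
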